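import Mathlib
import Fermat.Prelude.Def_FLTPrelim_CofixedLine
import Fermat.Prelude.Def_FLTPrelim_Ramification
import Fermat.Agent.S05.Interface

/-!
# S13: shared definitions

`S13_Inert A σ`: the elementwise inertia condition used by all local packages of S13.
-/

set_option autoImplicit false

namespace Fermat.Agent.S13

open WeierstrassCurve WeierstrassCurve.Affine WeierstrassCurve.Affine.Point
open Fermat.Agent.S05

local notation "ℚbar" => AlgebraicClosure ℚ
local notation "Gℚ" => (AlgebraicClosure ℚ ≃ₐ[ℚ] AlgebraicClosure ℚ)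

/-- elementwise inertia condition at `A` (exactly the hypotheses of `S05_unramified_of_core`). -/
def S13_Inert (A : ValuationSubring ℚbar) (σ : Gℚ) : Prop :=
  (∀ x, σ x ∈ A ↔ x ∈ A) ∧ ∀ x ∈ A, σ x - x ∈ A.nonunits

theorem S13_inert_of_mem (A : ValuationSubring ℚbar) (σ : Gℚ)
    (hσ : σ ∈ A.inertiaSubgroupIn ℚ) : S13_Inert A σ :=
  ⟨S05_mem_iff_of_mem_decomposition A σ (S05_inertia_le_decomposition A σ hσ),
    fun _ hy => S05_inertia_sub_mem_nonunits A hσ hy⟩

end Fermat.Agent.S13
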