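import Mathlib
import Fermat.Prelude.Def_FLTPrelim_CofixedLine
import Fermat.Prelude.Def_FLTPrelim_Ramification
import Fermat.Agent.S05.Interface
import Fermat.Agent.Lib.FrobExists
import Fermat.Agent.S13.Defs

/-!
# S13: assembly

`S13_of_inputs`: the statement of S13 from the inputs of the squad packages
(division polynomials DP4, S05, local analysis at `2` and at `p`, Minkowski G1), all taken as
hypotheses here.
-/

set_option autoImplicit false
set_option linter.style.haveILetI false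
set_option linter.unusedSectionVars false

namespace Fermat.Agent.S13

open WeierstrassCurve WeierstrassCurve.Affine WeierstrassCurve.Affine.Point
open Fermat.Agent.S05 Fermat.Agent.S51 Fermat.Agent.Lib

local notation "ℚbar" => AlgebraicClosure ℚ
local notation "Gℚ" => (AlgebraicClosure ℚ ≃ₐ[ℚ] AlgebraicClosure ℚ)

/-- In a one-dimensional space an endomorphism `g` with `(g - 1)² = 0` is the identity. -/
theorem S13_asm_eq_id_of_sq {k M : Type*} [Field k] [AddCommGroup M] [Module k M]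
    (h1 : Module.finrank k M = 1) (g : M →ₗ[k] M)
    (hg : ∀ x, g (g x - x) = g x - x) (x : M) : g x = x := by
  obtain ⟨v, hv0, hv⟩ := finrank_eq_one_iff'.mp h1
  obtain ⟨c, hc⟩ := hv (g v)
  have h2 := hg v
  rw [← hc] at h2
  have h3 : ((c - 1) * (c - 1)) • v = 0 := by
    have : g (c • v - v) = c • (c • v) - c • v := by
      rw [map_sub, map_smul, ← hc]
    rw [this] at h2
    have h4 : c • (c • v) - c • v - (c • v - v) = 0 := sub_eq_zero.mpr h2
    rw [← h4]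
    module
  have h5 : (c - 1) * (c - 1) = 0 := by
    rcases smul_eq_zero.mp h3 with h | h
    · exact h
    · exact absurd h hv0
  have hc1 : c = 1 := by
    have := mul_self_eq_zero.mp h5
    exact sub_eq_zero.mp this
  obtain ⟨a, ha⟩ := hv x
  rw [← ha, map_smul, ← hc, hc1, one_smul]

variable (P : FreyPackage)

/-- the `p`-torsion module of the Frey curve -/
abbrev S13_V : Type := ↥(Submodule.torsionBy ℤ (P.freyCurve⁄ℚbar).Point P.p)

theorem S13_asm_coe_smul (σ : Gℚ) (x : S13_V P) :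
    ((σ • x : S13_V P) : (P.freyCurve⁄ℚbar).Point) = σ • (x : (P.freyCurve⁄ℚbar).Point) := rfl

theorem S13_asm_nsmul_eq_zero (x : S13_V P) : P.p • (x : (P.freyCurve⁄ℚbar).Point) = 0 :=
  (S05_mem_torsionBy_iff _ _).mp x.2

/-- a `p`-torsion point as an element of the torsion module -/
def S13_asm_mk (Q : (P.freyCurve⁄ℚbar).Point) (hQ : P.p • Q = 0) : S13_V P :=
  ⟨Q, (S05_mem_torsionBy_iff _ _).mpr hQ⟩

/-- the Galois action as a `ZMod p`-linear map -/
noncomputable def S13_asm_lin (σ : Gℚ) : S13_V P →ₗ[ZMod P.p] S13_V P :=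
  (DistribSMul.toAddMonoidHom (S13_V P) σ).toZModLinearMap P.p

theorem S13_asm_lin_apply (σ : Gℚ) (x : S13_V P) : S13_asm_lin P σ x = σ • x := rfl

theorem S13_asm_finite (hfin : {Q : (P.freyCurve⁄ℚbar).Point | P.p • Q = 0}.Finite) :
    Finite (S13_V P) := by
  have : Finite {Q : (P.freyCurve⁄ℚbar).Point | P.p • Q = 0} := hfin.to_subtype
  refine Finite.of_injective (fun x : S13_V P =>
    (⟨x.1, S13_asm_nsmul_eq_zero P x⟩ : {Q : (P.freyCurve⁄ℚbar).Point | P.p • Q = 0})) ?_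
  intro x y h
  exact Subtype.ext (congrArg Subtype.val h)

theorem S13_asm_card_le (hfin : {Q : (P.freyCurve⁄ℚbar).Point | P.p • Q = 0}.Finite)
    (hcard : {Q : (P.freyCurve⁄ℚbar).Point | P.p • Q = 0}.ncard ≤ P.p ^ 2) :
    Nat.card (S13_V P) ≤ P.p ^ 2 := by
  have : Finite {Q : (P.freyCurve⁄ℚbar).Point | P.p • Q = 0} := hfin.to_subtype
  refine le_trans ?_ hcard
  rw [← Nat.card_coe_set_eq]
  refine Nat.card_le_card_of_injective (fun x : S13_V P =>
    (⟨x.1, S13_asm_nsmul_eq_zero P x⟩ : {Q : (P.freyCurve⁄ℚbar).Point | P.p • Q = 0})) ?_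
  intro x y h
  exact Subtype.ext (congrArg Subtype.val h)

theorem S13_asm_finrank_le (hfin : {Q : (P.freyCurve⁄ℚbar).Point | P.p • Q = 0}.Finite)
    (hcard : {Q : (P.freyCurve⁄ℚbar).Point | P.p • Q = 0}.ncard ≤ P.p ^ 2) :
    haveI : Fact P.p.Prime := ⟨P.pp⟩
    Module.finrank (ZMod P.p) (S13_V P) ≤ 2 := by
  haveI : Fact P.p.Prime := ⟨P.pp⟩
  haveI := S13_asm_finite P hfin
  have h1 := S13_asm_card_le P hfin hcard
  have h2 : Nat.card (S13_V P) = Nat.card (ZMod P.p) ^ Module.finrank (ZMod P.p) (S13_V P) :=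
    Module.natCard_eq_pow_finrank
  rw [h2, Nat.card_zmod] at h1
  exact (Nat.pow_le_pow_iff_right P.pp.one_lt).mp h1

section subgroups

variable (N : Submodule (ZMod P.p) (S13_V P))

/-- the kernel of the character on the line -/
def S13_asm_H₁ : Subgroup Gℚ where
  carrier := {σ | ∀ x ∈ N, σ • x = x}
  one_mem' := fun x _ => one_smul _ x
  mul_mem' := by
    intro σ τ hσ hτ x hx
    rw [mul_smul, hτ x hx, hσ x hx]
  inv_mem' := by
    intro σ hσ x hx
    have := hσ x hx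
    calc σ⁻¹ • x = σ⁻¹ • (σ • x) := by rw [this]
      _ = x := inv_smul_smul σ x

/-- the kernel of the character on the quotient -/
def S13_asm_H₂ (hN : IsGaloisStable ℚ N) : Subgroup Gℚ where
  carrier := {σ | ∀ x : S13_V P, σ • x - x ∈ N}
  one_mem' := fun x => by simp
  mul_mem' := by
    intro σ τ hσ hτ x
    have h1 : (σ * τ) • x - x = σ • (τ • x - x) + (σ • x - x) := by
      rw [mul_smul, smul_sub]; abel
    rw [h1]
    exact N.add_mem (hN σ _ (hτ x)) (hσ x)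
  inv_mem' := by
    intro σ hσ x
    have h1 : σ⁻¹ • x - x = -(σ⁻¹ • (σ • x - x)) := by
      rw [smul_sub, inv_smul_smul]; abel
    rw [h1]
    exact N.neg_mem (hN σ⁻¹ _ (hσ x))

theorem S13_asm_mem_H₁ (σ : Gℚ) : σ ∈ S13_asm_H₁ P N ↔ ∀ x ∈ N, σ • x = x := Iff.rfl

theorem S13_asm_mem_H₂ (hN : IsGaloisStable ℚ N) (σ : Gℚ) : σ ∈ S13_asm_H₂ P N hN ↔ ∀ x : S13_V P, σ • x - x ∈ N :=
  Iff.rfl

theorem S13_asm_H₁_normal (hN : IsGaloisStable ℚ N) : (S13_asm_H₁ P N).Normal := by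
  constructor
  intro σ hσ g x hx
  have h1 : g⁻¹ • x ∈ N := hN g⁻¹ x hx
  rw [mul_smul, mul_smul, hσ _ h1, smul_inv_smul]

theorem S13_asm_H₂_normal (hN : IsGaloisStable ℚ N) : (S13_asm_H₂ P N hN).Normal := by
  constructor
  intro σ hσ g x
  have h1 := hσ (g⁻¹ • x)
  have h2 : (g * σ * g⁻¹) • x - x = g • (σ • (g⁻¹ • x) - g⁻¹ • x) := by
    rw [mul_smul, mul_smul, smul_sub, smul_inv_smul]
  rw [h2]
  exact hN g _ h1

/-- both subgroups are open: they contain the pointwise stabiliser of the coordinates of the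
finitely many torsion points. -/
theorem S13_asm_open (hfin : {Q : (P.freyCurve⁄ℚbar).Point | P.p • Q = 0}.Finite) :
    ∃ S : Finset ℚbar, ∀ σ : Gℚ, (∀ s ∈ S, σ s = s) →
      ∀ Q : (P.freyCurve⁄ℚbar).Point, P.p • Q = 0 → σ • Q = Q := by
  classical
  -- coordinates of a point
  let cx : (P.freyCurve⁄ℚbar).Point → ℚbar := fun Q =>
    match Q with
    | .zero => 0
    | .some x _ _ => x
  let cy : (P.freyCurve⁄ℚbar).Point → ℚbar := fun Q =>
    match Q with
    | .zero => 0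
    | .some _ y _ => y
  refine ⟨hfin.toFinset.image cx ∪ hfin.toFinset.image cy, fun σ hσ Q hQ => ?_⟩
  rcases Q with _ | ⟨x, y, h⟩
  · rfl
  · have hx : σ x = x := hσ x (Finset.mem_union_left _
      (Finset.mem_image.mpr ⟨Point.some x y h, hfin.mem_toFinset.mpr hQ, rfl⟩))
    have hy : σ y = y := hσ y (Finset.mem_union_right _
      (Finset.mem_image.mpr ⟨Point.some x y h, hfin.mem_toFinset.mpr hQ, rfl⟩))
    rw [S05_smul_some]
    simp only [hx, hy]

end subgroups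

section unipotent

variable (N : Submodule (ZMod P.p) (S13_V P))

/-- If `(σ - 1)² = 0` on `E[p]`, `N` is a stable line and `E[p]/N` is a line, then `σ` acts
trivially on `N` and on `E[p]/N`. -/
theorem S13_asm_unipotent (hN : IsGaloisStable ℚ N)
    (hN1 : haveI : Fact P.p.Prime := ⟨P.pp⟩; Module.finrank (ZMod P.p) N = 1)
    (hQ1 : haveI : Fact P.p.Prime := ⟨P.pp⟩; Module.finrank (ZMod P.p) (S13_V P ⧸ N) = 1)
    (σ : Gℚ) (hσ : ∀ Q : (P.freyCurve⁄ℚbar).Point, P.p • Q = 0 → σ • (σ • Q - Q) = σ • Q - Q) :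
    (∀ x ∈ N, σ • x = x) ∧ ∀ x : S13_V P, σ • x - x ∈ N := by
  haveI : Fact P.p.Prime := ⟨P.pp⟩
  have hV : ∀ x : S13_V P, σ • (σ • x - x) = σ • x - x := by
    intro x
    apply Subtype.ext
    exact hσ x.1 (S13_asm_nsmul_eq_zero P x)
  constructor
  · intro x hx
    have hf : ∀ y ∈ N, S13_asm_lin P σ y ∈ N := fun y hy => hN σ y hy
    have key := S13_asm_eq_id_of_sq hN1 ((S13_asm_lin P σ).restrict hf) (by
      intro y
      apply Subtype.ext
      exact hV y.1) ⟨x, hx⟩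
    exact congrArg Subtype.val key
  · intro x
    have hf : N ≤ N.comap (S13_asm_lin P σ) := fun y hy => hN σ y hy
    have key := S13_asm_eq_id_of_sq hQ1 (N.mapQ N (S13_asm_lin P σ) hf) (by
      intro y
      induction y using Submodule.Quotient.induction_on with
      | H z =>
        rw [Submodule.mapQ_apply, ← Submodule.Quotient.mk_sub, Submodule.mapQ_apply]
        congr 1
        exact hV z) (Submodule.Quotient.mk x)
    rw [Submodule.mapQ_apply] at key
    exact (Submodule.Quotient.eq N).mp key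

end unipotent

/-- scalar multiplication by `ZMod p` on the torsion module is `ℕ`-multiplication on points -/
theorem S13_asm_coe_zmod_smul (c : ZMod P.p) (x : S13_V P) :
    ((c • x : S13_V P) : (P.freyCurve⁄ℚbar).Point) = c.val • (x : (P.freyCurve⁄ℚbar).Point) := by
  haveI : Fact P.p.Prime := ⟨P.pp⟩
  haveI : NeZero P.p := ⟨P.pp.ne_zero⟩
  have h1 : c • x = (c.val : ℕ) • x := by
    conv_lhs => rw [← ZMod.natCast_zmod_val c]
    exact Nat.cast_smul_eq_nsmul (ZMod P.p) c.val x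
  rw [h1]
  rfl

/-- **Assembly of S13** from the inputs of the squad packages. -/
theorem S13_of_inputs
    (hex : ∃ Q : (P.freyCurve⁄ℚbar).Point, Q ≠ 0 ∧ P.p • Q = 0)
    (hfin : {Q : (P.freyCurve⁄ℚbar).Point | P.p • Q = 0}.Finite)
    (hcard : {Q : (P.freyCurve⁄ℚbar).Point | P.p • Q = 0}.ncard ≤ P.p ^ 2)
    (hS05 : ∀ q : ℕ, q.Prime → q ≠ 2 → q ≠ P.p → P.GaloisRepUnramifiedAt q)
    (htwo : ∀ (A : ValuationSubring ℚbar), (2 : ℚbar) ∈ A.nonunits → ∀ σ τ : Gℚ,
      S13_Inert A σ → S13_Inert A τ → ∀ Q : (P.freyCurve⁄ℚbar).Point, P.p • Q = 0 →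
        τ • (σ • Q - Q) = σ • Q - Q)
    (hrat : ∀ Q : (P.freyCurve⁄ℚbar).Point, P.p • Q = 0 → (∀ σ : Gℚ, σ • Q = Q) → Q = 0)
    (hatp : ∀ (A : ValuationSubring ℚbar), (P.p : ℚbar) ∈ A.nonunits →
      ∀ Q₀ : (P.freyCurve⁄ℚbar).Point, Q₀ ≠ 0 → P.p • Q₀ = 0 →
      (∀ σ : Gℚ, ∃ j : ℕ, σ • Q₀ = j • Q₀) →
      (∀ σ : Gℚ, S13_Inert A σ → σ • Q₀ = Q₀) ∨
        (∀ σ : Gℚ, S13_Inert A σ → ∀ Q : (P.freyCurve⁄ℚbar).Point, P.p • Q = 0 →
          ∃ j : ℕ, σ • Q - Q = j • Q₀))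
    (hG1 : ∀ (H : Subgroup Gℚ), H.Normal →
      (∃ S : Finset ℚbar, ∀ σ : Gℚ, (∀ s ∈ S, σ s = s) → σ ∈ H) →
      (∀ ℓ : ℕ, ℓ.Prime → ∃ A : ValuationSubring ℚbar, A.LiesOverPrime ℓ ∧
        A.inertiaSubgroupIn ℚ ≤ H) → H = ⊤)
    (hred : ¬ GaloisRepIsIrreducible (K := ℚbar) ℚ P.freyCurve P.p) :
    HasGaloisStableCofixedLine (K := ℚbar) ℚ P.freyCurve P.p := by
  haveI : Fact P.p.Prime := ⟨P.pp⟩
  haveI hfinV : Finite (S13_V P) := S13_asm_finite P hfin
  haveI : Module.Finite (ZMod P.p) (S13_V P) := Module.Finite.of_finite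
  -- the torsion module is nontrivial
  have hnt : Nontrivial (S13_V P) := by
    obtain ⟨Q, hQ0, hQ⟩ := hex
    refine ⟨⟨S13_asm_mk P Q hQ, 0, ?_⟩⟩
    intro h
    exact hQ0 (congrArg Subtype.val h)
  -- a stable proper nonzero submodule
  obtain ⟨N, hN, hbot, htop⟩ : ∃ N : Submodule (ZMod P.p) (S13_V P),
      IsGaloisStable ℚ N ∧ N ≠ ⊥ ∧ N ≠ ⊤ := by
    by_contra hcon
    apply hred
    refine ⟨hnt, fun N hN => ?_⟩
    by_contra h2
    rw [not_or] at h2
    exact hcon ⟨N, hN, h2.1, h2.2⟩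
  -- dimensions
  have hV2 := S13_asm_finrank_le P hfin hcard
  have h1 : 1 ≤ Module.finrank (ZMod P.p) N := Submodule.one_le_finrank_iff.mpr hbot
  have h2 : Module.finrank (ZMod P.p) N < Module.finrank (ZMod P.p) (S13_V P) :=
    Submodule.finrank_lt htop
  have h3 := Submodule.finrank_quotient_add_finrank N
  have hN1 : Module.finrank (ZMod P.p) N = 1 := by omega
  have hQ1 : Module.finrank (ZMod P.p) (S13_V P ⧸ N) = 1 := by omega
  -- a generator of the line
  obtain ⟨v, hv0, hv⟩ := finrank_eq_one_iff'.mp hN1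
  set Q₀ : (P.freyCurve⁄ℚbar).Point := ((v : S13_V P) : (P.freyCurve⁄ℚbar).Point) with hQ₀def
  have hQ₀ne : Q₀ ≠ 0 := by
    intro h
    apply hv0
    apply Subtype.ext
    apply Subtype.ext
    exact h
  have hQ₀p : P.p • Q₀ = 0 := S13_asm_nsmul_eq_zero P v.1
  have hgen : ∀ x ∈ N, ∃ j : ℕ, ((x : S13_V P) : (P.freyCurve⁄ℚbar).Point) = j • Q₀ := by
    intro x hx
    obtain ⟨c, hc⟩ := hv ⟨x, hx⟩
    refine ⟨c.val, ?_⟩
    have h4 : (c • (v : S13_V P) : S13_V P) = x := congrArg Subtype.val hc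
    rw [← h4, S13_asm_coe_zmod_smul]
  have hmemN : ∀ (x : S13_V P) (j : ℕ), (x : (P.freyCurve⁄ℚbar).Point) = j • Q₀ → x ∈ N := by
    intro x j hx
    have h4 : x = (j : ZMod P.p) • (v : S13_V P) := by
      apply Subtype.ext
      rw [hx, Nat.cast_smul_eq_nsmul (ZMod P.p) j (v : S13_V P)]
      rfl
    rw [h4]
    exact N.smul_mem _ v.2
  have hstab : ∀ σ : Gℚ, ∃ j : ℕ, σ • Q₀ = j • Q₀ := by
    intro σ
    obtain ⟨j, hj⟩ := hgen (σ • (v : S13_V P)) (hN σ _ v.2)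
    exact ⟨j, hj⟩
  -- the two subgroups
  have hn1 := S13_asm_H₁_normal P N hN
  have hn2 := S13_asm_H₂_normal P N hN
  obtain ⟨S, hS⟩ := S13_asm_open P hfin
  have ho1 : ∃ S : Finset ℚbar, ∀ σ : Gℚ, (∀ s ∈ S, σ s = s) → σ ∈ S13_asm_H₁ P N :=
    ⟨S, fun σ hσ x _ => Subtype.ext (hS σ hσ x.1 (S13_asm_nsmul_eq_zero P x))⟩
  have ho2 : ∃ S : Finset ℚbar, ∀ σ : Gℚ, (∀ s ∈ S, σ s = s) → σ ∈ S13_asm_H₂ P N hN := by
    refine ⟨S, fun σ hσ x => ?_⟩
    have : σ • x = x := Subtype.ext (hS σ hσ x.1 (S13_asm_nsmul_eq_zero P x))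
    rw [this, sub_self]
    exact N.zero_mem
  -- local behaviour away from `p`
  have hloc : ∀ ℓ : ℕ, ℓ.Prime → ℓ ≠ P.p → ∀ A : ValuationSubring ℚbar, A.LiesOverPrime ℓ →
      A.inertiaSubgroupIn ℚ ≤ S13_asm_H₁ P N ⊓ S13_asm_H₂ P N hN := by
    intro ℓ hℓ hℓp A hA σ hσ
    by_cases h2 : ℓ = 2
    · subst h2
      have hA2 : (2 : ℚbar) ∈ A.nonunits := by
        have := hA
        unfold ValuationSubring.LiesOverPrime at this
        simpa using this
      have hin := S13_inert_of_mem A σ hσ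
      have := S13_asm_unipotent P N hN hN1 hQ1 σ (fun Q hQ => htwo A hA2 σ σ hin hin Q hQ)
      exact ⟨this.1, this.2⟩
    · have hun := hS05 ℓ hℓ h2 hℓp A hA σ hσ
      refine ⟨fun x _ => hun x, fun x => ?_⟩
      have h0 : σ • x - x = 0 := sub_eq_zero.mpr (hun x)
      rw [h0]
      exact N.zero_mem
  -- a valuation subring over `p`
  obtain ⟨Ap, hAp⟩ := frobExists_exists_valuationSubring P.p P.pp
  rcases hatp Ap hAp Q₀ hQ₀ne hQ₀p hstab with hcase | hcase
  · -- inertia at `p` acts trivially on the line: the line consists of rational points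
    exfalso
    have hH : S13_asm_H₁ P N = ⊤ := by
      refine hG1 _ hn1 ho1 (fun ℓ hℓ => ?_)
      by_cases hℓp : ℓ = P.p
      · subst hℓp
        refine ⟨Ap, hAp, fun σ hσ x hx => ?_⟩
        obtain ⟨j, hj⟩ := hgen x hx
        apply Subtype.ext
        rw [S13_asm_coe_smul, hj, S05_smul_nsmul, hcase σ (S13_inert_of_mem Ap σ hσ)]
      · obtain ⟨A, hA⟩ := frobExists_exists_valuationSubring ℓ hℓ
        exact ⟨A, hA, fun σ hσ => (hloc ℓ hℓ hℓp A hA hσ).1⟩
    apply hQ₀ne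
    refine hrat Q₀ hQ₀p (fun σ => ?_)
    have hσ : σ ∈ S13_asm_H₁ P N := by rw [hH]; exact Subgroup.mem_top σ
    exact congrArg Subtype.val (hσ v.1 v.2)
  · -- inertia at `p` acts trivially on the quotient: `N` is a cofixed line
    have hH : S13_asm_H₂ P N hN = ⊤ := by
      refine hG1 _ hn2 ho2 (fun ℓ hℓ => ?_)
      by_cases hℓp : ℓ = P.p
      · subst hℓp
        refine ⟨Ap, hAp, fun σ hσ x => ?_⟩
        obtain ⟨j, hj⟩ := hcase σ (S13_inert_of_mem Ap σ hσ) x.1 (S13_asm_nsmul_eq_zero P x)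
        exact hmemN (σ • x - x) j hj
      · obtain ⟨A, hA⟩ := frobExists_exists_valuationSubring ℓ hℓ
        exact ⟨A, hA, fun σ hσ => (hloc ℓ hℓ hℓp A hA hσ).2⟩
    refine ⟨N, hN, hbot, htop, fun σ x => ?_⟩
    have hσ : σ ∈ S13_asm_H₂ P N hN := by rw [hH]; exact Subgroup.mem_top σ
    exact hσ x

end Fermat.Agent.S13
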