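import Mathlib
import Fermat.Agent.S05.Defs
import Fermat.Agent.Lib.DivPolyCount
import Fermat.Agent.Lib.NewtonRoots

/-!
# S13, package LP4r: the Newton count at `p`

For a Weierstrass curve `W` with coefficients in a valuation subring `A` of a field `K` of
characteristic zero and an odd prime `p`: if `s` is a finite set of inverses `x⁻¹` of
`X`-coordinates `x ∉ A` of points killed by `p`, then `v(p) ≤ ∏_{t ∈ s} v(t)`.

Proof: the reverse of `preΨ_p` has coefficients in `A`, constant coefficient `p`, and every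
`t ∈ s` is a root of it; apply `newton_coeff_zero_le` (LP1).
-/

set_option autoImplicit false

namespace Fermat.Agent.S13

open WeierstrassCurve WeierstrassCurve.Affine WeierstrassCurve.Affine.Point
open Fermat.Agent.S05 Fermat.Agent.S51 Fermat.Agent.Lib

variable {K : Type*} [Field K] {W : WeierstrassCurve.Affine K} (A : ValuationSubring K)

/-- the coefficients of `preΨ_n` of an integral curve lie in `A`. -/
theorem S13_atp_preΨ_coeff_mem (hW : S05_Integral W A) (n : ℤ) (i : ℕ) :
    (W.preΨ n).coeff i ∈ A := by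
  let WA : WeierstrassCurve A :=
    ⟨⟨W.a₁, hW.a₁⟩, ⟨W.a₂, hW.a₂⟩, ⟨W.a₃, hW.a₃⟩, ⟨W.a₄, hW.a₄⟩, ⟨W.a₆, hW.a₆⟩⟩
  have hmap : WA.map A.subtype = W := by
    ext <;> rfl
  rw [← hmap, WeierstrassCurve.map_preΨ, Polynomial.coeff_map]
  exact Subtype.property _

/-- the coefficients of the reverse of `preΨ_n` of an integral curve lie in `A`. -/
theorem S13_atp_reverse_coeff_mem (hW : S05_Integral W A) (n : ℤ) (i : ℕ) :
    (W.preΨ n).reverse.coeff i ∈ A := by
  rw [Polynomial.coeff_reverse]
  exact S13_atp_preΨ_coeff_mem A hW n _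

/-- a root `x ≠ 0` of `f` gives the root `x⁻¹` of the reverse of `f`. -/
theorem S13_atp_reverse_eval_inv (f : Polynomial K) {x : K} (hx : x ≠ 0) (hf : f.eval x = 0) :
    f.reverse.eval x⁻¹ = 0 := by
  let _inst : Invertible x := invertibleOfNonzero hx
  have h := Polynomial.eval₂_reverse_mul_pow (RingHom.id K) x f
  rw [Polynomial.eval₂_id, Polynomial.eval₂_id, invOf_eq_inv, hf] at h
  rcases mul_eq_zero.1 h with h1 | h1
  · exact h1
  · exact absurd h1 (pow_ne_zero _ hx)

variable [CharZero K] [DecidableEq K]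

/-- LP4r: the Newton count at `p`. -/
theorem S13_atp_newton (hW : S05_Integral W A) {p : ℕ} (hp : p.Prime) (hp2 : p ≠ 2)
    (s : Finset K)
    (hs : ∀ t ∈ s, ∃ x y, ∃ h : W.Nonsingular x y,
      p • (Point.some x y h : W.Point) = 0 ∧ x ∉ A ∧ t = x⁻¹) :
    A.valuation (p : K) ≤ ∏ t ∈ s, A.valuation t := by
  have hodd : Odd p := hp.odd_of_ne_two hp2
  have hc0 : (W.preΨ (p : ℤ)).reverse.coeff 0 = (p : K) := by
    rw [Polynomial.coeff_zero_reverse]
    exact (dp_preΨ_data W hodd).2
  have key := newton_coeff_zero_le A (W.preΨ (p : ℤ)).reverse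
    (fun i => S13_atp_reverse_coeff_mem A hW (p : ℤ) i) s (by
      intro t ht
      obtain ⟨x, y, h, hQ, hx, rfl⟩ := hs t ht
      have hx0 : x ≠ 0 := by
        rintro rfl
        exact hx (zero_mem A)
      refine ⟨?_, ?_⟩
      · rcases A.mem_or_inv_mem x with h1 | h1
        · exact absurd h1 hx
        · exact h1
      · exact S13_atp_reverse_eval_inv _ hx0 (dp_preΨ_eval_eq_zero W h hodd hQ))
  rwa [hc0] at key

end Fermat.Agent.S13
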