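import Mathlib
import Fermat.Agent.S13.Defs
import Fermat.Agent.S13.AtPNewton
import Fermat.Agent.S05.KernelGen
import Fermat.Agent.S05.Interface

/-!
# S13, block LP4 (main part): inertia at `p` acts trivially on a stable line or on the quotient

`S13_atpm_main` is the statement `S13_atp` of the skeleton, with the three feeder lemmas
(`S13_atp_prod_rat`, `S13_atp_rat_val`, `S13_atp_sub_inE1`) as hypotheses.
-/

set_option autoImplicit false
set_option linter.unusedSectionVars false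
set_option linter.unusedVariables false

namespace Fermat.Agent.S13

open WeierstrassCurve WeierstrassCurve.Affine WeierstrassCurve.Affine.Point
open Fermat.Agent.S05 Fermat.Agent.S51 Fermat.Agent.Lib

local notation "ℚbar" => AlgebraicClosure ℚ
local notation "Gℚ" => (AlgebraicClosure ℚ ≃ₐ[ℚ] AlgebraicClosure ℚ)

/-! ### cyclic groups of prime order -/

section cyclic

variable {G : Type*} [AddCommGroup G] {p : ℕ}

lemma S13_atpm_mul_p {Q₀ : G} (hpQ₀ : p • Q₀ = 0) (c : ℕ) : (p * c) • Q₀ = 0 := by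
  rw [mul_nsmul, hpQ₀, smul_zero]

lemma S13_atpm_mod {Q₀ : G} (hpQ₀ : p • Q₀ = 0) (m : ℕ) :
    m • Q₀ = (m % p) • Q₀ := by
  conv_lhs => rw [← Nat.div_add_mod m p]
  rw [add_nsmul, S13_atpm_mul_p hpQ₀, zero_add]

lemma S13_atpm_not_dvd {Q₀ : G} (hpQ₀ : p • Q₀ = 0) {m : ℕ} (hm : m • Q₀ ≠ 0) : ¬ p ∣ m := by
  rintro ⟨c, rfl⟩
  exact hm (S13_atpm_mul_p hpQ₀ c)

lemma S13_atpm_ne_zero (hp : p.Prime) {Q₀ : G} (hQ₀ : Q₀ ≠ 0) (hpQ₀ : p • Q₀ = 0) {m : ℕ}
    (hm : ¬ p ∣ m) : m • Q₀ ≠ 0 := by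
  intro h0
  have hcop : Nat.Coprime m p := ((Nat.Prime.coprime_iff_not_dvd hp).2 hm).symm
  obtain ⟨k, -, hk⟩ := Nat.exists_mul_mod_eq_one_of_coprime hcop hp.one_lt
  apply hQ₀
  have h1 : (m * k) • Q₀ = Q₀ := by
    rw [S13_atpm_mod hpQ₀ (m * k), hk, one_nsmul]
  rw [← h1, mul_nsmul, h0, smul_zero]

lemma S13_atpm_gen (hp : p.Prime) {Q₀ : G} (hpQ₀ : p • Q₀ = 0) (m : ℕ) (hm : m • Q₀ ≠ 0) :
    ∃ k : ℕ, k • (m • Q₀) = Q₀ := by
  have hpm : ¬ p ∣ m := S13_atpm_not_dvd hpQ₀ hm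
  have hcop : Nat.Coprime m p := ((Nat.Prime.coprime_iff_not_dvd hp).2 hpm).symm
  obtain ⟨k, -, hk⟩ := Nat.exists_mul_mod_eq_one_of_coprime hcop hp.one_lt
  refine ⟨k, ?_⟩
  rw [← mul_nsmul, S13_atpm_mod hpQ₀ (m * k), hk, one_nsmul]

/-- differences in a cyclic group of order `p` are multiples. -/
lemma S13_atpm_sub (hp : p.Prime) {Q₀ : G} (hpQ₀ : p • Q₀ = 0) (a b : ℕ) :
    a • Q₀ - b • Q₀ = (a + b * (p - 1)) • Q₀ := by
  have hp1 : 1 ≤ p := hp.one_lt.le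
  have h : b • Q₀ + (b * (p - 1)) • Q₀ = 0 := by
    have e : b + b * (p - 1) = p * b := by
      obtain ⟨q, rfl⟩ : ∃ q, p = q + 1 := ⟨p - 1, by omega⟩
      simp only [Nat.add_sub_cancel]
      ring
    rw [← add_nsmul, e, S13_atpm_mul_p hpQ₀]
  rw [add_nsmul, sub_eq_iff_eq_add]
  rw [add_assoc, add_comm ((b * (p - 1)) • Q₀), h, add_zero]

end cyclic

/-! ### products in the value group -/

lemma S13_atpm_one_lt_prod {ι : Type*} {Γ : Type*} [LinearOrderedCommGroupWithZero Γ]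
    (X : Finset ι) (f : ι → Γ) (hX : X.Nonempty) (h : ∀ x ∈ X, 1 < f x) :
    1 < ∏ x ∈ X, f x := by
  classical
  induction hX using Finset.Nonempty.cons_induction with
  | singleton a => simpa using h a (Finset.mem_singleton_self a)
  | cons a s ha hs ih =>
    rw [Finset.prod_cons]
    have h1 : 1 < f a := h a (Finset.mem_cons_self a s)
    have h2 : 1 < ∏ x ∈ s, f x := ih (fun x hx => h x (Finset.mem_cons.2 (Or.inr hx)))
    calc (1 : Γ) < f a := h1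
      _ = f a * 1 := (mul_one _).symm
      _ ≤ f a * ∏ x ∈ s, f x := mul_le_mul_right h2.le _

/-! ### the `X`-coordinate as a function -/

section xcoord

variable {K : Type*} [Field K] [DecidableEq K] {W : Affine K}

/-- the `X`-coordinate of a point (`0` at the point at infinity). -/
noncomputable def S13_atpm_x : W.Point → K
  | .zero => 0
  | .some x _ _ => x

lemma S13_atpm_isX {Q : W.Point} (hQ : Q ≠ 0) : S51_c_IsX Q (S13_atpm_x Q) := by
  rcases Q with _ | ⟨x, y, h⟩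
  · exact absurd rfl hQ
  · exact ⟨y, h, rfl⟩

lemma S13_atpm_x_eq {Q : W.Point} {x : K} (h : S51_c_IsX Q x) : S13_atpm_x Q = x := by
  obtain ⟨y, hy, rfl⟩ := h
  rfl

/-- a nonzero point of the kernel of reduction has non-integral `X`-coordinate. -/
lemma S13_atpm_x_not_mem {A : ValuationSubring K} {Q : W.Point} (hQ : Q ≠ 0)
    (hE : S05_InE1 A Q) : S13_atpm_x Q ∉ A := by
  rcases hE with h0 | ⟨x, hx, hxA⟩
  · exact absurd h0 hQ
  · rwa [S13_atpm_x_eq hx]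

/-- a nonzero point outside the kernel of reduction has integral `X`-coordinate. -/
lemma S13_atpm_x_mem {A : ValuationSubring K} {x y : K} (h : W.Nonsingular x y)
    (hE : ¬ S05_InE1 A (Point.some x y h : W.Point)) : x ∈ A := by
  by_contra hx
  exact hE (Or.inr ⟨x, ⟨y, h, rfl⟩, hx⟩)

end xcoord

section xcoordGal

variable {R : Type*} {S : Type*} {K : Type*} [CommRing R] [CommRing S] [Field K]
  [DecidableEq K] {W' : Affine R} [Algebra R S] [Algebra R K] [Algebra S K]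
  [IsScalarTower R S K]

lemma S13_atpm_x_smul (σ : K ≃ₐ[S] K) (Q : (W'⁄K).Point) :
    S13_atpm_x (σ • Q) = σ (S13_atpm_x Q) := by
  rcases Q with _ | ⟨x, y, h⟩
  · show (0 : K) = σ 0
    rw [_root_.map_zero]
  · rfl

end xcoordGal

/-! ### the main theorem -/

section main

variable (P : FreyPackage)

/-- `V ∩ E₁ ⊆ ⟨Q₀⟩` if `Q₀` lies in the kernel of reduction (Newton count + rationality of the
product of the `X`-coordinates of `⟨Q₀⟩ ∖ 0`). -/
theorem S13_atpm_claim (A : ValuationSubring ℚbar) (hA : (P.p : ℚbar) ∈ A.nonunits)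
    (hprod : ∀ X : Finset ℚbar, (∀ σ : Gℚ, ∀ x ∈ X, σ x ∈ X) →
      ∃ z : ℚ, algebraMap ℚ ℚbar z = ∏ x ∈ X, x)
    (hval : ∀ z : ℚ, algebraMap ℚ ℚbar z ∉ A →
      1 ≤ A.valuation ((P.p : ℚbar) * algebraMap ℚ ℚbar z))
    (Q₀ : (P.freyCurve⁄ℚbar).Point) (hQ₀ : Q₀ ≠ 0) (hpQ₀ : P.p • Q₀ = 0)
    (hstab : ∀ σ : Gℚ, ∃ j : ℕ, σ • Q₀ = j • Q₀) (hE : S05_InE1 A Q₀)
    (Q : (P.freyCurve⁄ℚbar).Point) (hQ : P.p • Q = 0) (hQE : S05_InE1 A Q) :
    ∃ j : ℕ, Q = j • Q₀ := by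
  have hp := P.pp
  have hp2 : P.p ≠ 2 := by have := P.hp5; omega
  have hW : S05_Integral (P.freyCurve⁄ℚbar) A := S05_freyQbar_integral hp hp2 hA
  by_contra hne
  push Not at hne
  have hQ0 : Q ≠ 0 := by
    intro h0
    exact hne 0 (by rw [h0, zero_nsmul])
  -- the set `X`
  set X : Finset ℚbar := (Finset.Icc 1 (P.p - 1)).image (fun j => S13_atpm_x (j • Q₀)) with hX
  have hj0 : ∀ j ∈ Finset.Icc 1 (P.p - 1), j • Q₀ ≠ 0 := by
    intro j hj
    rw [Finset.mem_Icc] at hj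
    apply S13_atpm_ne_zero hp hQ₀ hpQ₀
    intro hdvd
    have := Nat.le_of_dvd (by omega) hdvd
    omega
  have hjE : ∀ j : ℕ, S05_InE1 A (j • Q₀) := fun j => S05_inE1_nsmul_gen A hW hE j
  have hXA : ∀ x ∈ X, x ∉ A := by
    intro x hx
    rw [hX, Finset.mem_image] at hx
    obtain ⟨j, hj, rfl⟩ := hx
    exact S13_atpm_x_not_mem (hj0 j hj) (hjE j)
  have hXne : X.Nonempty := by
    refine ⟨S13_atpm_x (1 • Q₀), ?_⟩
    rw [hX, Finset.mem_image]
    refine ⟨1, ?_, rfl⟩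
    rw [Finset.mem_Icc]
    have := P.hp5
    omega
  -- Galois stability
  have hXG : ∀ σ : Gℚ, ∀ x ∈ X, σ x ∈ X := by
    intro σ x hx
    rw [hX, Finset.mem_image] at hx ⊢
    obtain ⟨j, hj, rfl⟩ := hx
    obtain ⟨i, hi⟩ := hstab σ
    have hi0 : i • Q₀ ≠ 0 := by
      rw [← hi]
      intro h0
      exact hQ₀ ((S51_c_smul_eq_zero_iff σ).1 h0)
    have hij : σ • (j • Q₀) = ((i * j) % P.p) • Q₀ := by
      rw [S51_c_smul_nsmul, hi, ← mul_nsmul, ← S13_atpm_mod hpQ₀]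
    refine ⟨(i * j) % P.p, ?_, ?_⟩
    · rw [Finset.mem_Icc]
      have hpi : ¬ P.p ∣ i := S13_atpm_not_dvd hpQ₀ hi0
      have hpj : ¬ P.p ∣ j := S13_atpm_not_dvd hpQ₀ (hj0 j hj)
      have hpij : ¬ P.p ∣ i * j := fun h => (hp.dvd_mul.1 h).elim hpi hpj
      have h1 : (i * j) % P.p ≠ 0 := fun h => hpij (Nat.dvd_of_mod_eq_zero h)
      have h2 : (i * j) % P.p < P.p := Nat.mod_lt _ hp.pos
      omega
    · rw [← hij, S13_atpm_x_smul]
  -- the product is rational and not integral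
  obtain ⟨r, hr⟩ := hprod X hXG
  have hZ : 1 < A.valuation (∏ x ∈ X, x) := by
    rw [map_prod]
    apply S13_atpm_one_lt_prod X _ hXne
    intro x hx
    rw [← not_le]
    exact fun h => hXA x hx ((A.valuation_le_one_iff _).1 h)
  have hrA : algebraMap ℚ ℚbar r ∉ A := by
    rw [hr]
    intro h
    exact absurd ((A.valuation_le_one_iff _).2 h) (not_le.2 hZ)
  have h1 := hval r hrA
  rw [hr, map_mul] at h1
  -- the point `Q`
  obtain ⟨x₁, hx₁⟩ := S51_c_exists_isX_of_ne_zero hQ0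
  have hx₁A : x₁ ∉ A := by
    have := S13_atpm_x_not_mem hQ0 hQE
    rwa [S13_atpm_x_eq hx₁] at this
  have hx₁X : x₁ ∉ X := by
    intro hx
    rw [hX, Finset.mem_image] at hx
    obtain ⟨j, hj, hjx⟩ := hx
    have hjX : S51_c_IsX (j • Q₀) x₁ := by
      rw [← hjx]; exact S13_atpm_isX (hj0 j hj)
    rcases hx₁.eq_or_eq_neg hjX with h | h
    · exact hne j h
    · apply hne (0 + j * (P.p - 1))
      rw [h, ← S13_atpm_sub hp hpQ₀, zero_nsmul, zero_sub]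
  -- Newton
  set s : Finset ℚbar := (insert x₁ X).image (fun x => x⁻¹) with hs
  have hsN : ∀ t ∈ s, ∃ x y, ∃ h : (P.freyCurve⁄ℚbar).Nonsingular x y,
      P.p • (Point.some x y h : (P.freyCurve⁄ℚbar).Point) = 0 ∧ x ∉ A ∧ t = x⁻¹ := by
    intro t ht
    rw [hs, Finset.mem_image] at ht
    obtain ⟨x, hx, rfl⟩ := ht
    rw [Finset.mem_insert] at hx
    rcases hx with rfl | hx
    · obtain ⟨y, h, rfl⟩ := hx₁
      exact ⟨x, y, h, hQ, hx₁A, rfl⟩
    · have hxA := hXA x hx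
      rw [hX, Finset.mem_image] at hx
      obtain ⟨j, hj, rfl⟩ := hx
      obtain ⟨y, h, hjQ⟩ := S13_atpm_isX (hj0 j hj)
      refine ⟨_, y, h, ?_, hxA, rfl⟩
      rw [← hjQ, ← mul_nsmul, mul_comm, S13_atpm_mul_p hpQ₀]
  have hN := S13_atp_newton A hW hp hp2 s hsN
  rw [hs, Finset.prod_image (by intro a _ b _ h; exact inv_injective h),
    Finset.prod_insert hx₁X] at hN
  simp only [map_inv₀] at hN
  rw [Finset.prod_inv_distrib, ← map_prod] at hN
  -- contradiction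
  have hb : 1 < A.valuation x₁ := by
    rw [← not_le]
    exact fun h => hx₁A ((A.valuation_le_one_iff _).1 h)
  have hZ0 : A.valuation (∏ x ∈ X, x) ≠ 0 := ne_of_gt (lt_trans zero_lt_one hZ)
  have h3 : A.valuation (P.p : ℚbar) * A.valuation (∏ x ∈ X, x) ≤
      (A.valuation x₁)⁻¹ * (A.valuation (∏ x ∈ X, x))⁻¹ * A.valuation (∏ x ∈ X, x) :=
    mul_le_mul_left hN _
  rw [inv_mul_cancel_right₀ hZ0] at h3
  have h4 : 1 ≤ (A.valuation x₁)⁻¹ := h1.trans h3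
  have h5 : A.valuation x₁ ≤ 1 := (one_le_inv₀ (lt_trans zero_lt_one hb)).1 h4
  exact absurd h5 (not_le.2 hb)

/-- **LP4, main part**: the statement `S13_atp` with the feeder lemmas as hypotheses. -/
theorem S13_atpm_main (A : ValuationSubring ℚbar) (hA : (P.p : ℚbar) ∈ A.nonunits)
    (hprod : ∀ X : Finset ℚbar, (∀ σ : Gℚ, ∀ x ∈ X, σ x ∈ X) →
      ∃ z : ℚ, algebraMap ℚ ℚbar z = ∏ x ∈ X, x)
    (hval : ∀ z : ℚ, algebraMap ℚ ℚbar z ∉ A →
      1 ≤ A.valuation ((P.p : ℚbar) * algebraMap ℚ ℚbar z))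
    (hsub : ∀ σ : Gℚ, S13_Inert A σ →
      ∀ {x y : ℚbar} (h : (P.freyCurve⁄ℚbar).Nonsingular x y), x ∈ A →
      P.p • (Point.some x y h : (P.freyCurve⁄ℚbar).Point) = 0 →
      S05_InE1 A (σ • (Point.some x y h : (P.freyCurve⁄ℚbar).Point) - Point.some x y h))
    (Q₀ : (P.freyCurve⁄ℚbar).Point) (hQ₀ : Q₀ ≠ 0) (hpQ₀ : P.p • Q₀ = 0)
    (hstab : ∀ σ : Gℚ, ∃ j : ℕ, σ • Q₀ = j • Q₀) :
    (∀ σ : Gℚ, S13_Inert A σ → σ • Q₀ = Q₀) ∨
      (∀ σ : Gℚ, S13_Inert A σ → ∀ Q : (P.freyCurve⁄ℚbar).Point, P.p • Q = 0 →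
        ∃ j : ℕ, σ • Q - Q = j • Q₀) := by
  have hp := P.pp
  have hp2 : P.p ≠ 2 := by have := P.hp5; omega
  have hW : S05_Integral (P.freyCurve⁄ℚbar) A := S05_freyQbar_integral hp hp2 hA
  by_cases hE : S05_InE1 A Q₀
  · right
    have hclaim := S13_atpm_claim P A hA hprod hval Q₀ hQ₀ hpQ₀ hstab hE
    intro σ hσ Q hQ
    by_cases hQE : S05_InE1 A Q
    · obtain ⟨k, rfl⟩ := hclaim Q hQ hQE
      obtain ⟨j, hj⟩ := hstab σ
      refine ⟨j * k + k * (P.p - 1), ?_⟩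
      rw [S51_c_smul_nsmul, hj, ← mul_nsmul, S13_atpm_sub hp hpQ₀]
    · rcases Q with _ | ⟨x, y, h⟩
      · exact absurd (Or.inl rfl) hQE
      · have hx : x ∈ A := S13_atpm_x_mem h hQE
        have hR := hsub σ hσ h hx hQ
        have hpR : P.p • (σ • (Point.some x y h : (P.freyCurve⁄ℚbar).Point) -
            Point.some x y h) = 0 := by
          rw [nsmul_sub, ← S51_c_smul_nsmul, hQ, S51_c_smul_zero, sub_zero]
        exact hclaim _ hpR hR
  · left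
    intro σ hσ
    rcases Q₀ with _ | ⟨x, y, h⟩
    · exact absurd rfl hQ₀
    have hx : x ∈ A := S13_atpm_x_mem h hE
    have hR := hsub σ hσ h hx hpQ₀
    obtain ⟨j, hj⟩ := hstab σ
    by_contra hne
    have hm : (j + 1 * (P.p - 1)) • (Point.some x y h : (P.freyCurve⁄ℚbar).Point) ≠ 0 := by
      rw [← S13_atpm_sub hp hpQ₀, one_nsmul, ← hj]
      exact sub_ne_zero.2 hne
    obtain ⟨k, hk⟩ := S13_atpm_gen hp hpQ₀ _ hm
    rw [← S13_atpm_sub hp hpQ₀, one_nsmul, ← hj] at hk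
    have := S05_inE1_nsmul_gen A hW hR k
    rw [hk] at this
    exact hE this

end main

end Fermat.Agent.S13
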