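import Mathlib
import Fermat.Agent.S13.Defs

/-!
# S13, block LP4z (helper15): rationality and valuation of a Galois-stable product

* `S13_atpx_prod_fixed` : a Galois automorphism stabilising a finset fixes its product.
* `S13_atp_prod_rat`    : the product of a Galois-stable finset of `ℚbar` is rational.
* `S13_atp_rat_val`     : a rational number outside a valuation ring `A` over `p` satisfies
  `1 ≤ v (p * z)`.
* `S13_atpx_fixed_val`  : a Galois-fixed `z ∉ A` satisfies `v z⁻¹ ≤ v p`.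
-/

set_option autoImplicit false

namespace Fermat.Agent.S13

open Fermat.Agent.S05

local notation "ℚbar" => AlgebraicClosure ℚ
local notation "Gℚ" => (AlgebraicClosure ℚ ≃ₐ[ℚ] AlgebraicClosure ℚ)

/-- A Galois automorphism stabilising a finset fixes its product. -/
theorem S13_atpx_prod_fixed (s : Finset ℚbar) (σ : Gℚ) (hs : ∀ x ∈ s, σ x ∈ s) :
    σ (∏ x ∈ s, x) = ∏ x ∈ s, x := by
  classical
  have himg : s.image σ = s := by
    apply Finset.eq_of_subset_of_card_le
    · intro y hy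
      obtain ⟨x, hx, rfl⟩ := Finset.mem_image.mp hy
      exact hs x hx
    · rw [Finset.card_image_of_injective _ σ.injective]
  rw [map_prod]
  conv_rhs => rw [← himg]
  rw [Finset.prod_image (fun x _ y _ h => σ.injective h)]

/-- A Galois-fixed element of `ℚbar` is rational. -/
theorem S13_atpx_rat_of_fixed (z : ℚbar) (hz : ∀ σ : Gℚ, σ z = z) :
    ∃ r : ℚ, algebraMap ℚ ℚbar r = z := by
  have hcl : IsAlgClosure ℚ ℚbar := ⟨inferInstance, AlgebraicClosure.isAlgebraic ℚ⟩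
  have hgal : IsGalois ℚ ℚbar := IsAlgClosure.isGalois ℚ ℚbar
  exact (InfiniteGalois.mem_range_algebraMap_iff_fixed (k := ℚ) (K := ℚbar) z).mpr hz

/-- LP4z, part 1: the product of a Galois-stable finset is rational. -/
theorem S13_atp_prod_rat (X : Finset ℚbar) (hX : ∀ σ : Gℚ, ∀ x ∈ X, σ x ∈ X) :
    ∃ z : ℚ, algebraMap ℚ ℚbar z = ∏ x ∈ X, x :=
  S13_atpx_rat_of_fixed _ (fun σ => S13_atpx_prod_fixed X σ (hX σ))

/-- LP4z, part 2: a rational number outside a valuation ring over `p` has `1 ≤ v (p z)`. -/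
theorem S13_atp_rat_val (A : ValuationSubring ℚbar) {p : ℕ} (hp : p.Prime)
    (hA : (p : ℚbar) ∈ A.nonunits) (z : ℚ) (hz : algebraMap ℚ ℚbar z ∉ A) :
    1 ≤ A.valuation ((p : ℚbar) * algebraMap ℚ ℚbar z) := by
  have hzeq : algebraMap ℚ ℚbar z = (z.num : ℚbar) / ((z.den : ℤ) : ℚbar) := by
    conv_lhs => rw [← Rat.num_div_den z]
    simp [map_div₀]
  have hpd : (p : ℤ) ∣ (z.den : ℤ) := by
    by_contra hnd
    apply hz
    rw [hzeq]
    exact S05_intCast_div_mem A hp hA z.num hnd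
  obtain ⟨d', hd'⟩ := hpd
  have hpn : ¬ (p : ℤ) ∣ z.num := by
    intro h
    have h1 : p ∣ z.num.natAbs := Int.natCast_dvd.mp h
    have h2 : p ∣ z.den := Int.natCast_dvd_natCast.mp ⟨d', hd'⟩
    have h3 := Nat.dvd_gcd h1 h2
    rw [Nat.Coprime.gcd_eq_one z.reduced] at h3
    exact hp.one_lt.ne' (Nat.dvd_one.mp h3)
  have hp0 : (p : ℚbar) ≠ 0 := by exact_mod_cast hp.ne_zero
  have hd0 : (d' : ℚbar) ≠ 0 := by
    intro h0
    have : d' = 0 := by exact_mod_cast h0
    rw [this, mul_zero] at hd'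
    exact z.den_nz (by exact_mod_cast hd')
  have hpz : (p : ℚbar) * algebraMap ℚ ℚbar z = (z.num : ℚbar) / (d' : ℚbar) := by
    rw [hzeq, hd']
    push_cast
    field_simp
  rw [hpz, map_div₀, S05_valuation_intCast_eq_one A hp hA hpn]
  have hv : A.valuation (d' : ℚbar) ≤ 1 := (A.valuation_le_one_iff _).mpr (S05_intCast_mem A d')
  have hv0 : A.valuation (d' : ℚbar) ≠ 0 := (Valuation.ne_zero_iff _).mpr hd0
  rw [one_div]
  exact (one_le_inv₀ (zero_lt_iff.mpr hv0)).mpr hv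

/-- LP4z, combined form: a Galois-fixed `z ∉ A` has `v z⁻¹ ≤ v p`. -/
theorem S13_atpx_fixed_val (p : ℕ) (hp : p.Prime) (A : ValuationSubring ℚbar)
    (hA : (p : ℚbar) ∈ A.nonunits) (z : ℚbar) (hz : ∀ σ : Gℚ, σ z = z) (hzA : z ∉ A) :
    A.valuation z⁻¹ ≤ A.valuation (p : ℚbar) := by
  obtain ⟨r, rfl⟩ := S13_atpx_rat_of_fixed z hz
  have h := S13_atp_rat_val A hp hA r hzA
  have hz0 : algebraMap ℚ ℚbar r ≠ 0 := by
    intro h0
    apply hzA
    rw [h0]
    exact A.zero_mem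
  have hv0 : A.valuation (algebraMap ℚ ℚbar r) ≠ 0 := (Valuation.ne_zero_iff _).mpr hz0
  rw [map_mul] at h
  rw [map_inv₀]
  calc (A.valuation (algebraMap ℚ ℚbar r))⁻¹
      = 1 * (A.valuation (algebraMap ℚ ℚbar r))⁻¹ := (one_mul _).symm
    _ ≤ (A.valuation (p : ℚbar) * A.valuation (algebraMap ℚ ℚbar r)) *
          (A.valuation (algebraMap ℚ ℚbar r))⁻¹ := mul_le_mul_left h _
    _ = A.valuation (p : ℚbar) := by
        rw [mul_assoc, mul_inv_cancel₀ hv0, mul_one]

end Fermat.Agent.S13
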