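import Mathlib
import Fermat.Agent.S13.Defs
import Fermat.Agent.S05.FreyCore
import Fermat.Agent.S05.NodeLevel
import Fermat.Agent.S05.Near
import Fermat.Agent.S05.LvlAddSub

/-!
# S13, block LP4s: at `p`, `σ Q - Q` lies in the kernel of reduction

For a valuation ring `A` of `ℚ̄` over the prime `p` of a Frey package, `σ` in the inertia group
at `A` (elementwise form `S13_Inert`) and an INTEGRAL point `Q` of order `p` of the Frey curve,
the point `σ Q - Q` lies in the kernel of reduction `E₁`.

This is the proof of `S05_frey_core_of` with `q := P.p`: the general lemmas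
`S05_sub_inE1_good` / `S05_sub_inE1_node_of` do not need `v(p) = 1`.
-/

set_option autoImplicit false
set_option linter.unusedSectionVars false
set_option linter.unusedVariables false

namespace Fermat.Agent.S13

open WeierstrassCurve WeierstrassCurve.Affine WeierstrassCurve.Affine.Point
open Fermat.Agent.S05

local notation "ℚbar" => AlgebraicClosure ℚ
local notation "Gℚ" => (AlgebraicClosure ℚ ≃ₐ[ℚ] AlgebraicClosure ℚ)

variable (P : FreyPackage)

/-- LP4s: for an integral `p`-torsion point `Q` of the Frey curve and `σ` in the inertia group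
at a place `A` over `p`, the difference `σ Q - Q` lies in the kernel of reduction. -/
theorem S13_atp_sub_inE1 (A : ValuationSubring ℚbar) (hA : (P.p : ℚbar) ∈ A.nonunits)
    (σ : Gℚ) (hσ : S13_Inert A σ) {x y : ℚbar} (h : (P.freyCurve⁄ℚbar).Nonsingular x y)
    (hx : x ∈ A) (hQ : P.p • (Point.some x y h : (P.freyCurve⁄ℚbar).Point) = 0) :
    S05_InE1 A (σ • (Point.some x y h : (P.freyCurve⁄ℚbar).Point) - Point.some x y h) := by
  have hq : P.p.Prime := P.pp
  have hq2 : P.p ≠ 2 := by have := P.hp5; omega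
  obtain ⟨hσA, hσ'⟩ := hσ
  have hW : S05_Integral (P.freyCurve⁄ℚbar) A := S05_freyQbar_integral hq hq2 hA
  have h2 : A.valuation (2 : ℚbar) = 1 := S05_valuation_two hq hq2 hA
  have hqZ : Prime (P.p : ℤ) := Int.prime_iff_natAbs_prime.mpr (by simpa using hq)
  by_cases habc : (P.p : ℤ) ∣ P.a * P.b * P.c
  · rcases hqZ.dvd_or_dvd habc with hab | hc
    · obtain ⟨hN, hβ⟩ := S05_frey_node_ab (P := P) hq hq2 hA hab
      exact S05_sub_inE1_node_of A hN P.pp hq2 σ hσ' hσA (map_zero σ)
        (r := ((P.a * P.b : ℤ) : ℚbar)) (map_intCast σ _) hβ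
        (fun h hP hX => S05_node_level_of_node A hN (S05_lvl_add_sub A hN) h P.pp hq2 hP hX)
        (fun h h' hX hβ hXX hbr => S05_near_node A hN h h' hX hβ hXX hbr) h hx hQ
    · obtain ⟨hN, hβ⟩ := S05_frey_node_c (P := P) hq hq2 hA hc
      have hσx₀ : σ ((P.a : ℚbar) ^ P.p / 4) = (P.a : ℚbar) ^ P.p / 4 := by
        rw [map_div₀, map_pow, map_intCast, map_ofNat]
      exact S05_sub_inE1_node_of A hN P.pp hq2 σ hσ' hσA hσx₀
        (r := ((P.a * P.c : ℤ) : ℚbar)) (map_intCast σ _) hβ
        (fun h hP hX => S05_node_level_of_node A hN (S05_lvl_add_sub A hN) h P.pp hq2 hP hX)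
        (fun h h' hX hβ hXX hbr => S05_near_node A hN h h' hX hβ hXX hbr) h hx hQ
  · have hΔ := S05_frey_Δ_not_mem_nonunits A P hq hq2 hA habc
    exact S05_sub_inE1_good A hW h2 hΔ P.hp_odd σ hσ' hσA h hx hQ

end Fermat.Agent.S13
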