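import Mathlib
import Fermat.Agent.S13.Defs
import Fermat.Agent.S13.AtPMain
import Fermat.Agent.S13.AtPRat
import Fermat.Agent.S13.AtPSub

/-!
# S13, block LP4: inertia at `p` acts trivially on a stable line or on the quotient
-/

set_option autoImplicit false

namespace Fermat.Agent.S13

open WeierstrassCurve WeierstrassCurve.Affine WeierstrassCurve.Affine.Point
open Fermat.Agent.S05 Fermat.Agent.S51 Fermat.Agent.Lib

local notation "ℚbar" => AlgebraicClosure ℚ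
local notation "Gℚ" => (AlgebraicClosure ℚ ≃ₐ[ℚ] AlgebraicClosure ℚ)

variable (P : FreyPackage)

/-- LP4: for a Galois-stable line `⟨Q₀⟩`, inertia at `p` acts trivially on the line or on the
quotient. -/
theorem S13_atp (A : ValuationSubring ℚbar) (hA : (P.p : ℚbar) ∈ A.nonunits)
    (Q₀ : (P.freyCurve⁄ℚbar).Point) (hQ₀ : Q₀ ≠ 0) (hpQ₀ : P.p • Q₀ = 0)
    (hstab : ∀ σ : Gℚ, ∃ j : ℕ, σ • Q₀ = j • Q₀) :
    (∀ σ : Gℚ, S13_Inert A σ → σ • Q₀ = Q₀) ∨
      (∀ σ : Gℚ, S13_Inert A σ → ∀ Q : (P.freyCurve⁄ℚbar).Point, P.p • Q = 0 →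
        ∃ j : ℕ, σ • Q - Q = j • Q₀) :=
  S13_atpm_main P A hA (fun X hX => S13_atp_prod_rat X hX)
    (fun z hz => S13_atp_rat_val A P.pp hA z hz)
    (fun σ hσ _ _ h hx hQ => S13_atp_sub_inE1 P A hA σ hσ h hx hQ)
    Q₀ hQ₀ hpQ₀ hstab

end Fermat.Agent.S13
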