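import Mathlib
import Fermat.Agent.S05.Interface

/-!
# S13, block L2f: the Frey curve at the prime `2`

`A` is a valuation subring of `ℚbar` with `2 ∈ 𝔪`.  The Frey curve
`y² + xy = x³ + a₂ x² + a₄ x` is integral at `A`, `a₄ ∈ 𝔪`, `b₂` is a unit and
`v a₄ = v 2 ^ m` with `m > 0` and `p ∤ 2 m` (here `m = p · v₂(b) - 4`).
-/

set_option autoImplicit false

namespace Fermat.Agent.S13

open WeierstrassCurve Fermat.Agent.S05 Fermat.Agent.S51

local notation "ℚbar" => AlgebraicClosure ℚ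

variable (P : FreyPackage)

/-- `b` is even. -/
theorem S13_two_dvd_b : (2 : ℤ) ∣ P.b := (ZMod.intCast_zmod_eq_zero_iff_dvd P.b 2).1 P.hb2

/-- `a ≡ -1 mod 4`. -/
theorem S13_two_a_modEq : P.a ≡ -1 [ZMOD 4] := by
  have h : (P.a : ZMod 4) = ((-1 : ℤ) : ZMod 4) := by
    rw [P.ha4]
    decide
  exact (ZMod.intCast_eq_intCast_iff P.a (-1) 4).1 h

/-- `a ^ p ≡ -1 mod 4`. -/
theorem S13_two_apow_modEq : P.a ^ P.p ≡ -1 [ZMOD 4] := by
  have h := (S13_two_a_modEq P).pow P.p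
  rwa [P.hp_odd.neg_one_pow] at h

/-- `a ^ p` is odd. -/
theorem S13_two_not_dvd_apow : ¬ (2 : ℤ) ∣ P.a ^ P.p := by
  intro h
  have h1 : (4 : ℤ) ∣ P.a ^ P.p - (-1) := (S13_two_apow_modEq P).symm.dvd
  obtain ⟨k, hk⟩ := h
  obtain ⟨l, hl⟩ := h1
  omega

/-- `4 ∣ b ^ p - 1 - a ^ p`. -/
theorem S13_two_four_dvd : (4 : ℤ) ∣ P.b ^ P.p - 1 - P.a ^ P.p := by
  have h1 : (4 : ℤ) ∣ P.a ^ P.p - (-1) := (S13_two_apow_modEq P).symm.dvd
  have h2 : (4 : ℤ) ∣ P.b ^ P.p := by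
    have hp : 2 ≤ P.p := by have := P.hp5; omega
    have h := (pow_dvd_pow_of_dvd (S13_two_dvd_b P) 2).trans (pow_dvd_pow P.b hp)
    norm_num at h
    exact h
  have e : P.b ^ P.p - 1 - P.a ^ P.p = P.b ^ P.p - (P.a ^ P.p - (-1)) := by ring
  rw [e]
  exact dvd_sub h2 h1

/-- the exact power of `2` in `b`. -/
theorem S13_two_b_decomp : ∃ (e : ℕ) (b' : ℤ), 1 ≤ e ∧ ¬ (2 : ℤ) ∣ b' ∧ P.b = 2 ^ e * b' := by
  have hb0 : P.b.natAbs ≠ 0 := Int.natAbs_ne_zero.2 P.hb0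
  obtain ⟨e, m, hm, hem⟩ := Nat.exists_eq_two_pow_mul_odd hb0
  have he : 1 ≤ e := by
    rcases Nat.eq_zero_or_pos e with h0 | h0
    · exfalso
      subst h0
      rw [pow_zero, one_mul] at hem
      have h2 : (2 : ℤ) ∣ P.b := S13_two_dvd_b P
      have h3 : 2 ∣ P.b.natAbs := by
        have := Int.natAbs_dvd_natAbs.2 h2
        simpa using this
      rw [hem] at h3
      exact (Nat.not_even_iff_odd.2 hm) (even_iff_two_dvd.2 h3)
    · exact h0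
  rcases Int.natAbs_eq P.b with h | h
  · refine ⟨e, (m : ℤ), he, ?_, ?_⟩
    · intro h2
      have : 2 ∣ m := by exact_mod_cast h2
      exact (Nat.not_even_iff_odd.2 hm) (even_iff_two_dvd.2 this)
    · rw [h, hem]
      push_cast
      ring
  · refine ⟨e, -(m : ℤ), he, ?_, ?_⟩
    · intro h2
      rw [dvd_neg] at h2
      have : 2 ∣ m := by exact_mod_cast h2
      exact (Nat.not_even_iff_odd.2 hm) (even_iff_two_dvd.2 this)
    · rw [h, hem]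
      push_cast
      ring

variable {P} {A : ValuationSubring ℚbar}

/-- `2 ∈ 𝔪` in the form used by the `S05` interface. -/
theorem S13_two_natCast_mem (hA : (2 : ℚbar) ∈ A.nonunits) : ((2 : ℕ) : ℚbar) ∈ A.nonunits := by
  simpa using hA

/-- `v 2 < 1`. -/
theorem S13_two_val_two_lt (hA : (2 : ℚbar) ∈ A.nonunits) : A.valuation (2 : ℚbar) < 1 :=
  (A.mem_nonunits_iff).1 hA

/-- `v 2 ≠ 0`. -/
theorem S13_two_val_two_ne (A : ValuationSubring ℚbar) : A.valuation (2 : ℚbar) ≠ 0 :=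
  (Valuation.ne_zero_iff _).2 two_ne_zero

/-- odd integers are units. -/
theorem S13_two_val_odd (hA : (2 : ℚbar) ∈ A.nonunits) {n : ℤ} (hn : ¬ (2 : ℤ) ∣ n) :
    A.valuation (n : ℚbar) = 1 :=
  S05_valuation_intCast_eq_one A Nat.prime_two (S13_two_natCast_mem hA) (by simpa using hn)

/-- odd natural numbers are units. -/
theorem S13_two_val_odd_nat (hA : (2 : ℚbar) ∈ A.nonunits) {n : ℕ} (hn : ¬ 2 ∣ n) :
    A.valuation (n : ℚbar) = 1 :=
  S05_valuation_natCast_eq_one Nat.prime_two (S13_two_natCast_mem hA) hn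

/-- `v p = 1`. -/
theorem S13_two_val_p (P : FreyPackage) (hA : (2 : ℚbar) ∈ A.nonunits) :
    A.valuation (P.p : ℚbar) = 1 :=
  S13_two_val_odd_nat hA (fun h => (Nat.not_even_iff_odd.2 P.hp_odd) (even_iff_two_dvd.2 h))

/-- `a₂` is (the image of) an integer. -/
theorem S13_two_a₂_int (P : FreyPackage) :
    ∃ k : ℤ, (P.freyCurve⁄ℚbar).a₂ = (k : ℚbar) := by
  obtain ⟨k, hk⟩ := S13_two_four_dvd P
  refine ⟨k, ?_⟩
  rw [S05_freyQbar_a₂]
  have h : ((P.b : ℚbar) ^ P.p - 1 - (P.a : ℚbar) ^ P.p) = 4 * (k : ℚbar) := by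
    exact_mod_cast congrArg (fun n : ℤ => (n : ℚbar)) hk
  rw [h]
  field_simp

/-- `a₄ = -(a^p b'^p) 2^(p e - 4)`. -/
theorem S13_two_a₄_eq (P : FreyPackage) : ∃ (m : ℕ) (u : ℤ), 0 < m ∧ ¬ P.p ∣ 2 * m ∧
    ¬ (2 : ℤ) ∣ u ∧ (P.freyCurve⁄ℚbar).a₄ = (u : ℚbar) * 2 ^ m := by
  obtain ⟨e, b', he, hb', hb⟩ := S13_two_b_decomp P
  have hp5 := P.hp5
  have hpe : 5 ≤ P.p * e := le_trans hp5 (Nat.le_mul_of_pos_right _ he)
  refine ⟨P.p * e - 4, -(P.a ^ P.p * b' ^ P.p), by omega, ?_, ?_, ?_⟩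
  · intro hdvd
    have h8 : P.p ∣ 2 * (P.p * e - 4) + 8 := by
      have : 2 * (P.p * e - 4) + 8 = P.p * (2 * e) := by
        have : 4 ≤ P.p * e := by omega
        zify [this]
        ring
      rw [this]
      exact dvd_mul_right _ _
    have h88 : P.p ∣ 8 := (Nat.dvd_add_right hdvd).1 h8
    have h2 : P.p ∣ 2 := P.pp.dvd_of_dvd_pow (n := 3) (by simpa using h88)
    have := Nat.le_of_dvd (by norm_num) h2
    omega
  · rw [dvd_neg]
    intro h2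
    rcases (Int.prime_two.dvd_or_dvd h2) with h | h
    · exact S13_two_not_dvd_apow P h
    · exact hb' (Int.prime_two.dvd_of_dvd_pow h)
  · rw [S05_freyQbar_a₄]
    have hbq : (P.b : ℚbar) = 2 ^ e * (b' : ℚbar) := by
      exact_mod_cast congrArg (fun n : ℤ => (n : ℚbar)) hb
    have hpow : (2 : ℚbar) ^ (P.p * e) = 2 ^ (P.p * e - 4) * 16 := by
      have : P.p * e = (P.p * e - 4) + 4 := by omega
      conv_lhs => rw [this, pow_add]
      norm_num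
    rw [hbq, mul_pow, ← pow_mul, mul_comm e P.p, hpow]
    push_cast
    field_simp

/-- `v a₄ = v 2 ^ m`, `m > 0`, `p ∤ 2 m`. -/
theorem S13_two_val_a₄ (P : FreyPackage) (hA : (2 : ℚbar) ∈ A.nonunits) :
    ∃ m : ℕ, 0 < m ∧ ¬ P.p ∣ 2 * m ∧
      A.valuation (P.freyCurve⁄ℚbar).a₄ = A.valuation (2 : ℚbar) ^ m := by
  obtain ⟨m, u, hm, hpm, hu, h⟩ := S13_two_a₄_eq P
  refine ⟨m, hm, hpm, ?_⟩
  rw [h, map_mul, map_pow, S13_two_val_odd hA hu, one_mul]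

/-- `a₄ ∈ 𝔪`. -/
theorem S13_two_a₄_lt (P : FreyPackage) (hA : (2 : ℚbar) ∈ A.nonunits) :
    A.valuation (P.freyCurve⁄ℚbar).a₄ < 1 := by
  obtain ⟨m, hm, -, h⟩ := S13_two_val_a₄ P hA
  rw [h]
  exact pow_lt_one₀ zero_le (S13_two_val_two_lt hA) hm.ne'

/-- `a₄ ≠ 0`. -/
theorem S13_two_a₄_ne (P : FreyPackage) : (P.freyCurve⁄ℚbar).a₄ ≠ 0 := by
  rw [S05_freyQbar_a₄]
  exact div_ne_zero (neg_ne_zero.2 (mul_ne_zero (pow_ne_zero _ S05_frey_a_ne_zero)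
    (pow_ne_zero _ S05_frey_b_ne_zero))) (by norm_num)

/-- the Frey curve is integral at `2`. -/
theorem S13_two_integral (P : FreyPackage) (hA : (2 : ℚbar) ∈ A.nonunits) :
    S05_Integral (P.freyCurve⁄ℚbar) A := by
  refine ⟨?_, ?_, ?_, ?_, ?_⟩
  · rw [S05_frey_a₁]; exact one_mem A
  · obtain ⟨k, hk⟩ := S13_two_a₂_int P
    rw [hk]; exact S05_intCast_mem A k
  · rw [S05_frey_a₃]; exact zero_mem A
  · exact (A.valuation_le_one_iff _).1 (S13_two_a₄_lt P hA).le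
  · rw [S05_frey_a₆]; exact zero_mem A

/-- `b₂ = b^p - a^p` is a unit at `2`. -/
theorem S13_two_b₂_unit (P : FreyPackage) (hA : (2 : ℚbar) ∈ A.nonunits) :
    A.valuation (P.freyCurve⁄ℚbar).b₂ = 1 := by
  rw [S05_freyQbar_b₂]
  have h : ¬ (2 : ℤ) ∣ P.b ^ P.p - P.a ^ P.p := by
    intro h
    have hb : (2 : ℤ) ∣ P.b ^ P.p := dvd_pow (S13_two_dvd_b P) P.hp0
    have := (dvd_sub_right hb).1 h
    exact S13_two_not_dvd_apow P this
  have := S13_two_val_odd hA h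
  simpa using this

end Fermat.Agent.S13
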