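import Mathlib
import Fermat.Agent.S05.Quad
import Fermat.Agent.S05.NodeDefs
import Fermat.Agent.S05.LvlQuad
import Fermat.Agent.S05.LvlCoreM

/-!
# S13, block L2d (field level): the level machinery in `γ`-form (any residue characteristic)

`v : Valuation K Γ` on a field, `μ = v γ`, `0 < μ < 1`, `S05_clip μ g = max μ (min 1 g)`.
No hypothesis on `v 2` (only `v 2 ≤ 1`, which is automatic), so this covers residue
characteristic `2`.

* `S13_lv_core` : from `Z₁ Z₂ (X₁ - X₂)² = (X₁X₂ - γ)²` and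
  `(Z₁ + Z₂)(X₁ - X₂)² = 2 (X₁ + X₂)(X₁X₂ + γ) + b X₁X₂` (`v b = 1`) the multiset identity
  `{clip Z₁, clip Z₂} ~ {clip X₁ * clip X₂, clip X₁ / clip X₂}`.
* `S13_lv_double`, `S13_lv_double_zero` : the doubling case, from
  `Z · X (4X² + bX + 4γ) = (X² - γ)²`.
-/

set_option autoImplicit false

namespace Fermat.Agent.S13

open Fermat.Agent.S05

variable {K : Type*} [Field K] {Γ : Type*} [LinearOrderedCommGroupWithZero Γ]

section num

variable (v : Valuation K Γ) {Y γ : K}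

lemma S13_lv_val_two_le : v (2 : K) ≤ 1 := by
  have := Valuation.map_add v 1 1
  rwa [one_add_one_eq_two, map_one, max_self] at this

lemma S13_lv_val_four_le : v (4 : K) ≤ 1 := by
  have h : (4 : K) = 2 * 2 := by norm_num
  rw [h, map_mul]
  exact (mul_le_mul' (S13_lv_val_two_le v) (S13_lv_val_two_le v)).trans (by rw [one_mul])

/-- the "fold" lemma in `γ`-form: the second root in the dominant case. -/
lemma S13_lv_fold {R : K} (hγ0 : γ ≠ 0) (hγ1 : v γ < 1)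
    (hw1 : v Y ≤ 1) (hw2 : v γ ^ 2 ≤ v Y) (hR : v R * v Y = v (Y - γ) ^ 2) :
    S05_Rel (v γ) (v Y) (S05_clip (v γ) (v R)) := by
  have hμ0 : 0 < v γ := zero_lt_iff.2 ((Valuation.ne_zero_iff v).2 hγ0)
  have hw0 : 0 < v Y := lt_of_lt_of_le (pow_pos hμ0 2) hw2
  rcases lt_trichotomy (v Y) (v γ) with hlt | heq | hgt
  · rw [Valuation.map_sub_eq_of_lt_right v hlt] at hR
    have e : v R = (v Y)⁻¹ * v γ ^ 2 := by
      rw [← hR, mul_comm (v R), inv_mul_cancel_left₀ hw0.ne']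
    have hc : S05_clip (v γ) (v R) = v R := by
      apply S05_clip_of_mem
      · rw [e, ← mul_le_mul_iff_right₀ hw0, mul_inv_cancel_left₀ hw0.ne', pow_two]
        exact mul_le_mul' hlt.le le_rfl
      · rw [e, ← mul_le_mul_iff_right₀ hw0, mul_inv_cancel_left₀ hw0.ne', mul_one]
        exact hw2
    rw [hc, e]
    exact S05_la_rel_inv_mul_sq _ _
  · have hn : v (Y - γ) ≤ v γ := by
      have := Valuation.map_sub v Y γ
      rwa [heq, max_self] at this
    have hle : v R ≤ v γ := by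
      have : v R * v γ ≤ v γ * v γ := by
        rw [← heq, hR, heq, pow_two]
        exact mul_le_mul' hn hn
      exact le_of_mul_le_mul_right this hμ0
    rw [S05_clip_of_le hγ1.le hle, heq]
    exact S05_la_rel_refl _ _
  · rw [Valuation.map_sub_eq_of_lt_left v hgt] at hR
    have e : v R = v Y := by
      have : v R * v Y = v Y * v Y := by rw [hR, pow_two]
      exact mul_right_cancel₀ hw0.ne' this
    rw [S05_clip_of_mem (e ▸ hgt.le) (e ▸ hw1), e]
    exact S05_la_rel_refl _ _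

end num

section core

variable (v : Valuation K Γ) {X₁ X₂ Z₁ Z₂ γ b : K}

/-- the `γ`-core under the normalisation `v X₂ ≤ v X₁`. -/
theorem S13_lv_core_aux (hb : v b = 1) (hγ0 : γ ≠ 0) (hγ1 : v γ < 1)
    (hne : X₁ ≠ X₂)
    (hPi : Z₁ * Z₂ * (X₁ - X₂) ^ 2 = (X₁ * X₂ - γ) ^ 2)
    (hSi : (Z₁ + Z₂) * (X₁ - X₂) ^ 2 = 2 * (X₁ + X₂) * (X₁ * X₂ + γ) + b * (X₁ * X₂))
    (hle : v X₂ ≤ v X₁) :
    (S05_Rel (v γ) (S05_clip (v γ) (v X₁) * S05_clip (v γ) (v X₂)) (S05_clip (v γ) (v Z₁)) ∧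
      S05_Rel (v γ) (S05_clip (v γ) (v X₁) / S05_clip (v γ) (v X₂))
        (S05_clip (v γ) (v Z₂))) ∨
    (S05_Rel (v γ) (S05_clip (v γ) (v X₁) / S05_clip (v γ) (v X₂)) (S05_clip (v γ) (v Z₁)) ∧
      S05_Rel (v γ) (S05_clip (v γ) (v X₁) * S05_clip (v γ) (v X₂))
        (S05_clip (v γ) (v Z₂))) := by
  have h2 : v (2 : K) ≤ 1 := S13_lv_val_two_le v
  have hμ0 : 0 < v γ := zero_lt_iff.2 ((Valuation.ne_zero_iff v).2 hγ0)
  have hd0 : 0 < v (X₁ - X₂) := zero_lt_iff.2 ((Valuation.ne_zero_iff v).2 (sub_ne_zero.2 hne))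
  have hdle : v (X₁ - X₂) ≤ v X₁ := (Valuation.map_sub v X₁ X₂).trans (max_le le_rfl hle)
  have hdeq : v X₂ < v X₁ → v (X₁ - X₂) = v X₁ := fun h => Valuation.map_sub_eq_of_lt_left v h
  have hg₁0 : 0 < v X₁ := hd0.trans_le hdle
  have hP : v (Z₁ * Z₂) * v (X₁ - X₂) ^ 2 = v (X₁ * X₂ - γ) ^ 2 := by
    have := congrArg v hPi
    rwa [map_mul, map_pow, map_pow] at this
  have hS : v (Z₁ + Z₂) * v (X₁ - X₂) ^ 2 =
      v (2 * (X₁ + X₂) * (X₁ * X₂ + γ) + b * (X₁ * X₂)) := by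
    have := congrArg v hSi
    rwa [map_mul, map_pow] at this
  have ht : v (X₁ + X₂) ≤ v X₁ := (Valuation.map_add v X₁ X₂).trans (max_le le_rfl hle)
  have hY : v (X₁ * X₂) = v X₁ * v X₂ := map_mul v _ _
  have hbY : v (b * (X₁ * X₂)) = v X₁ * v X₂ := by rw [map_mul, hb, one_mul, map_mul]
  have h2T : v (2 * (X₁ + X₂) * (X₁ * X₂ + γ)) ≤ v X₁ * v (X₁ * X₂ + γ) := by
    rw [map_mul, map_mul]
    exact mul_le_mul' ((mul_le_mul' h2 ht).trans (by rw [one_mul])) le_rfl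
  have hn_le : v (X₁ * X₂ - γ) ≤ max (v X₁ * v X₂) (v γ) := by
    rw [← hY]; exact Valuation.map_sub v _ _
  have hnp_le : v (X₁ * X₂ + γ) ≤ max (v X₁ * v X₂) (v γ) := by
    rw [← hY]; exact Valuation.map_add v _ _
  have hn_lt : v X₁ * v X₂ < v γ → v (X₁ * X₂ - γ) = v γ := fun h =>
    Valuation.map_sub_eq_of_lt_right v (by rwa [hY])
  have hn_gt : v γ < v X₁ * v X₂ → v (X₁ * X₂ - γ) = v X₁ * v X₂ := fun h => by
    rw [Valuation.map_sub_eq_of_lt_left v (by rwa [hY]), hY]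
  -- bound for `s`
  have hs_le : ∀ c : Γ, v (X₁ * X₂ + γ) ≤ c → v X₁ * v X₂ ≤ v X₁ * c →
      v (2 * (X₁ + X₂) * (X₁ * X₂ + γ) + b * (X₁ * X₂)) ≤ v X₁ * c := by
    intro c hc hc'
    refine (Valuation.map_add v _ _).trans (max_le ?_ ?_)
    · exact h2T.trans (mul_le_mul' le_rfl hc)
    · rw [hbY]; exact hc'
  rcases lt_or_ge (v X₁) 1 with h1 | h1
  · rcases le_or_gt (v X₁) (v γ) with h3 | h3
    · -- Case C : g₂ ≤ g₁ ≤ μ
      have hY_lt : v X₁ * v X₂ < v γ :=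
        (mul_le_mul' h3 (hle.trans h3)).trans_lt (mul_lt_of_lt_one_left hμ0 hγ1)
      have hn := hn_lt hY_lt
      have hnp : v (X₁ * X₂ + γ) ≤ v γ := hnp_le.trans (max_le hY_lt.le le_rfl)
      have hs := hs_le (v γ) hnp (mul_le_mul' le_rfl (hle.trans h3))
      have hs' : v (2 * (X₁ + X₂) * (X₁ * X₂ + γ) + b * (X₁ * X₂)) ≤
          v (X₁ * X₂ - γ) ^ 2 := by
        rw [hn, pow_two]
        exact hs.trans (mul_le_mul' h3 le_rfl)
      obtain ⟨hz₁, hz₂⟩ := S05_la_quad_ge v hd0 hP hS (by rw [hn]; exact hdle.trans h3) hs'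
      rw [S05_clip_of_le hγ1.le h3, S05_clip_of_le hγ1.le (hle.trans h3),
        S05_clip_of_one_le hγ1.le hz₁, S05_clip_of_one_le hγ1.le hz₂, div_self hμ0.ne']
      exact Or.inl ⟨S05_la_rel_sq_one hμ0.ne', S05_la_rel_refl _ _⟩
    · rcases le_or_gt (v X₂) (v γ) with h4 | h4
      · -- Case B : g₂ ≤ μ < g₁ < 1
        have hd := hdeq (h4.trans_lt h3)
        have hY_lt : v X₁ * v X₂ < v γ :=
          (mul_le_mul' le_rfl h4).trans_lt (mul_lt_of_lt_one_left hμ0 h1)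
        have hn := hn_lt hY_lt
        have hnp : v (X₁ * X₂ + γ) ≤ v γ := hnp_le.trans (max_le hY_lt.le le_rfl)
        have hs := hs_le (v γ) hnp (mul_le_mul' le_rfl h4)
        have hs' : v (2 * (X₁ + X₂) * (X₁ * X₂ + γ) + b * (X₁ * X₂)) ≤
            v (X₁ * X₂ - γ) * v (X₁ - X₂) := by
          rw [hn, hd, mul_comm (v γ) (v X₁)]; exact hs
        obtain ⟨hz₁, hz₂⟩ := S05_la_quad_bal v hd0 hP hS hs'
        rw [hn, hd] at hz₁ hz₂
        have key : ∀ z : Γ, z * v X₁ = v γ → S05_clip (v γ) z = (v X₁)⁻¹ * v γ := by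
          intro z hz
          have ez : z = (v X₁)⁻¹ * v γ := by
            rw [← hz, mul_comm z, inv_mul_cancel_left₀ hg₁0.ne']
          rw [← ez]
          apply S05_clip_of_mem
          · have : v γ * v X₁ ≤ z * v X₁ := by
              rw [hz]; exact mul_le_of_le_one_right' h1.le
            exact le_of_mul_le_mul_right this hg₁0
          · have : z * v X₁ ≤ 1 * v X₁ := by rw [hz, one_mul]; exact h3.le
            exact le_of_mul_le_mul_right this hg₁0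
        rw [S05_clip_of_mem h3.le h1.le, S05_clip_of_le hγ1.le h4, key _ hz₁, key _ hz₂]
        left
        constructor
        · have := S05_la_rel_inv_mul_sq (v γ) (v X₁ * v γ)
          rwa [mul_inv, pow_two, mul_assoc, inv_mul_cancel_left₀ hμ0.ne'] at this
        · have e : (v X₁ / v γ)⁻¹ = (v X₁)⁻¹ * v γ := by rw [inv_div, div_eq_inv_mul]
          rw [← e]
          exact S05_la_rel_inv _ _
      · -- Case AF : μ < g₂ ≤ g₁ < 1
        have hg₂0 : 0 < v X₂ := hμ0.trans h4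
        have hM : max (v X₁ * v X₂) (v γ) < v X₂ :=
          max_lt (mul_lt_of_lt_one_left hg₂0 h1) h4
        have hn_lt' : v (X₁ * X₂ - γ) < v X₂ := hn_le.trans_lt hM
        have hnp_lt : v (X₁ * X₂ + γ) < v X₂ := hnp_le.trans_lt hM
        have hs : v (2 * (X₁ + X₂) * (X₁ * X₂ + γ) + b * (X₁ * X₂)) = v X₁ * v X₂ := by
          rw [← hbY]
          apply Valuation.map_add_eq_of_lt_right
          rw [hbY]
          exact h2T.trans_lt (mul_lt_mul_of_pos_left hnp_lt hg₁0)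
        rw [hs] at hS
        have hdom : v (X₁ * X₂ - γ) * v (X₁ - X₂) < v X₁ * v X₂ := by
          rw [mul_comm (v X₁)]
          exact (mul_le_mul' le_rfl hdle).trans_lt (mul_lt_mul_of_pos_right hn_lt' hg₁0)
        have hw1 : v (X₁ * X₂) ≤ 1 := by
          rw [hY]; exact (mul_le_mul' h1.le (hle.trans h1.le)).trans (by rw [one_mul])
        have hw2 : v γ ^ 2 ≤ v (X₁ * X₂) := by
          rw [hY, pow_two]; exact mul_le_mul' h3.le h4.le
        rw [S05_clip_of_mem h3.le h1.le, S05_clip_of_mem h4.le (hle.trans h1.le)]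
        rcases S05_la_quad_dom v hd0 hP hS hdom with ⟨hr, hr'⟩ | ⟨hr, hr'⟩
        · right
          refine ⟨S05_la_root1 hγ1 hr hd0 hdle hdeq hle h4 h1, ?_⟩
          rw [← hY] at hr' ⊢
          exact S13_lv_fold v hγ0 hγ1 hw1 hw2 hr'
        · left
          refine ⟨?_, S05_la_root1 hγ1 hr hd0 hdle hdeq hle h4 h1⟩
          rw [← hY] at hr' ⊢
          exact S13_lv_fold v hγ0 hγ1 hw1 hw2 hr'
  · have h1' : v X₁ ≤ v X₁ * v X₁ := le_mul_of_one_le_right' h1
    rcases lt_or_ge (v X₂) 1 with h5 | h5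
    · -- Case D : g₂ < 1 ≤ g₁
      have hd := hdeq (h5.trans_le h1)
      rw [S05_clip_of_one_le hγ1.le h1, one_mul, one_div]
      have fin : S05_clip (v γ) (v Z₁) = S05_clip (v γ) (v X₂) ∧
          S05_clip (v γ) (v Z₂) = S05_clip (v γ) (v X₂) := by
        rcases le_or_gt (v X₁ * v X₂) (v γ) with h6 | h6
        · -- D1
          have hg₂ : v X₂ ≤ v γ := (le_mul_of_one_le_left' h1).trans h6
          have hn : v (X₁ * X₂ - γ) ≤ v γ * v (X₁ - X₂) := by
            rw [hd]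
            exact (hn_le.trans (max_le h6 le_rfl)).trans (le_mul_of_one_le_right' h1)
          have hnp : v (X₁ * X₂ + γ) ≤ v γ := hnp_le.trans (max_le h6 le_rfl)
          have hs := hs_le (v γ) hnp (h6.trans (le_mul_of_one_le_left' h1))
          have hs' : v (2 * (X₁ + X₂) * (X₁ * X₂ + γ) + b * (X₁ * X₂)) ≤
              v γ * v (X₁ - X₂) ^ 2 := by
            rw [hd, pow_two, mul_comm (v γ)]
            exact hs.trans (mul_le_mul' h1' le_rfl)
          obtain ⟨hz₁, hz₂⟩ := S05_la_quad_le v hd0 hP hS hs' hn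
          rw [S05_clip_of_le hγ1.le hz₁, S05_clip_of_le hγ1.le hz₂, S05_clip_of_le hγ1.le hg₂]
          exact ⟨rfl, rfl⟩
        · -- D2
          have hn := hn_gt h6
          have hnp : v (X₁ * X₂ + γ) ≤ v X₁ * v X₂ := hnp_le.trans (max_le le_rfl h6.le)
          have hs := hs_le (v X₁ * v X₂) hnp (le_mul_of_one_le_left' h1)
          have hs' : v (2 * (X₁ + X₂) * (X₁ * X₂ + γ) + b * (X₁ * X₂)) ≤
              v (X₁ * X₂ - γ) * v (X₁ - X₂) := by
            rw [hn, hd, mul_comm (v X₁ * v X₂) (v X₁)]; exact hs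
          obtain ⟨hz₁, hz₂⟩ := S05_la_quad_bal v hd0 hP hS hs'
          rw [hn, hd, mul_comm (v X₁)] at hz₁ hz₂
          rw [mul_right_cancel₀ hg₁0.ne' hz₁, mul_right_cancel₀ hg₁0.ne' hz₂]
          exact ⟨rfl, rfl⟩
      rw [fin.1, fin.2]
      exact Or.inl ⟨S05_la_rel_refl _ _,
        S05_la_rel_of_inv (by rw [inv_inv]; exact S05_la_rel_refl _ _)⟩
    · -- Case E : 1 ≤ g₂ ≤ g₁
      have hY1 : 1 ≤ v X₁ * v X₂ := (mul_le_mul' h1 h5).trans' (by rw [one_mul])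
      have hn := hn_gt (hγ1.trans_le hY1)
      have hnp : v (X₁ * X₂ + γ) ≤ v X₁ * v X₂ :=
        hnp_le.trans (max_le le_rfl (hγ1.le.trans hY1))
      have hs := hs_le (v X₁ * v X₂) hnp (le_mul_of_one_le_left' h1)
      have hs' : v (2 * (X₁ + X₂) * (X₁ * X₂ + γ) + b * (X₁ * X₂)) ≤
          v (X₁ * X₂ - γ) ^ 2 := by
        rw [hn, pow_two]
        exact hs.trans (mul_le_mul' (le_mul_of_one_le_right' h5) le_rfl)
      obtain ⟨hz₁, hz₂⟩ := S05_la_quad_ge v hd0 hP hS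
        (by rw [hn]; exact hdle.trans (le_mul_of_one_le_right' h5)) hs'
      rw [S05_clip_of_one_le hγ1.le h1, S05_clip_of_one_le hγ1.le h5,
        S05_clip_of_one_le hγ1.le hz₁, S05_clip_of_one_le hγ1.le hz₂, one_mul, div_one]
      exact Or.inl ⟨S05_la_rel_refl _ _, S05_la_rel_refl _ _⟩

/-- **Field-level core of the multiset identity, `γ`-form** (any residue characteristic). -/
theorem S13_lv_core (hb : v b = 1) (hγ0 : γ ≠ 0) (hγ1 : v γ < 1)
    (hne : X₁ ≠ X₂)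
    (hPi : Z₁ * Z₂ * (X₁ - X₂) ^ 2 = (X₁ * X₂ - γ) ^ 2)
    (hSi : (Z₁ + Z₂) * (X₁ - X₂) ^ 2 = 2 * (X₁ + X₂) * (X₁ * X₂ + γ) + b * (X₁ * X₂)) :
    (S05_Rel (v γ) (S05_clip (v γ) (v X₁) * S05_clip (v γ) (v X₂)) (S05_clip (v γ) (v Z₁)) ∧
      S05_Rel (v γ) (S05_clip (v γ) (v X₁) / S05_clip (v γ) (v X₂))
        (S05_clip (v γ) (v Z₂))) ∨
    (S05_Rel (v γ) (S05_clip (v γ) (v X₁) / S05_clip (v γ) (v X₂)) (S05_clip (v γ) (v Z₁)) ∧
      S05_Rel (v γ) (S05_clip (v γ) (v X₁) * S05_clip (v γ) (v X₂))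
        (S05_clip (v γ) (v Z₂))) := by
  rcases le_total (v X₂) (v X₁) with hle | hle
  · exact S13_lv_core_aux v hb hγ0 hγ1 hne hPi hSi hle
  · have hPi' : Z₁ * Z₂ * (X₂ - X₁) ^ 2 = (X₂ * X₁ - γ) ^ 2 := by
      rw [mul_comm X₂ X₁, ← hPi]; ring
    have hSi' : (Z₁ + Z₂) * (X₂ - X₁) ^ 2 =
        2 * (X₂ + X₁) * (X₂ * X₁ + γ) + b * (X₂ * X₁) := by
      rw [mul_comm X₂ X₁, add_comm X₂ X₁, ← hSi]; ring
    have key := S13_lv_core_aux v hb hγ0 hγ1 hne.symm hPi' hSi' hle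
    have e : (S05_clip (v γ) (v X₁) / S05_clip (v γ) (v X₂))⁻¹ =
        S05_clip (v γ) (v X₂) / S05_clip (v γ) (v X₁) := inv_div _ _
    rw [mul_comm (S05_clip (v γ) (v X₂)), ← e] at key
    rcases key with ⟨k1, k2⟩ | ⟨k1, k2⟩
    · exact Or.inl ⟨k1, S05_la_rel_of_inv k2⟩
    · exact Or.inr ⟨S05_la_rel_of_inv k1, k2⟩

end core

section double

variable (v : Valuation K Γ) {X Z γ b : K}

/-- the valuation of `4X² + bX + 4γ` is at most `max (max (v X * v X) (v X)) (v γ)`. -/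
lemma S13_lv_val_Q_le (hb : v b = 1) :
    v (4 * X ^ 2 + b * X + 4 * γ) ≤ max (max (v X * v X) (v X)) (v γ) := by
  have h4 := S13_lv_val_four_le v
  refine (Valuation.map_add v _ _).trans (max_le_max ((Valuation.map_add v _ _).trans
    (max_le_max ?_ ?_)) ?_)
  · rw [map_mul, map_pow, pow_two]
    exact (mul_le_mul' h4 le_rfl).trans (by rw [one_mul])
  · rw [map_mul, hb, one_mul]
  · rw [map_mul]
    exact (mul_le_mul' h4 le_rfl).trans (by rw [one_mul])

/-- if `v γ < v X < 1` then `v (4X² + bX + 4γ) = v X`. -/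
lemma S13_lv_val_Q_eq (hb : v b = 1) (h3 : v γ < v X) (h1 : v X < 1) :
    v (4 * X ^ 2 + b * X + 4 * γ) = v X := by
  have h4 := S13_lv_val_four_le v
  have hg0 : 0 < v X := lt_of_le_of_lt zero_le h3
  have hbX : v (b * X) = v X := by rw [map_mul, hb, one_mul]
  have e1 : v (4 * X ^ 2 + b * X) = v X := by
    rw [← hbX]
    apply Valuation.map_add_eq_of_lt_right
    rw [hbX, map_mul, map_pow, pow_two]
    exact ((mul_le_mul' h4 le_rfl).trans (by rw [one_mul])).trans_lt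
      (mul_lt_of_lt_one_left hg0 h1)
  rw [← e1]
  apply Valuation.map_add_eq_of_lt_left
  rw [e1, map_mul]
  exact ((mul_le_mul' h4 le_rfl).trans (by rw [one_mul])).trans_lt h3

/-- doubling, the case `2P = 0`. -/
theorem S13_lv_double_zero (hb : v b = 1) (hγ0 : γ ≠ 0) (hγ1 : v γ < 1)
    (h0 : X * (4 * X ^ 2 + b * X + 4 * γ) = 0) :
    S05_Rel (v γ) (S05_clip (v γ) (v X) * S05_clip (v γ) (v X)) 1 := by
  have hμ0 : 0 < v γ := zero_lt_iff.2 ((Valuation.ne_zero_iff v).2 hγ0)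
  rcases le_or_gt (v X) (v γ) with h3 | h3
  · rw [S05_clip_of_le hγ1.le h3]
    exact S05_la_rel_sq_one hμ0.ne'
  · rcases lt_or_ge (v X) 1 with h1 | h1
    · exfalso
      have hX0 : X ≠ 0 := (Valuation.ne_zero_iff v).1 (lt_of_le_of_lt zero_le h3).ne'
      have hQ0 : 4 * X ^ 2 + b * X + 4 * γ = 0 := (mul_eq_zero.1 h0).resolve_left hX0
      have := S13_lv_val_Q_eq v (γ := γ) hb h3 h1
      rw [hQ0, map_zero] at this
      exact (lt_of_le_of_lt zero_le h3).ne this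
    · rw [S05_clip_of_one_le hγ1.le h1, one_mul]
      exact S05_la_rel_refl _ _

/-- doubling, the case `2P ≠ 0`. -/
theorem S13_lv_double (hb : v b = 1) (hγ0 : γ ≠ 0) (hγ1 : v γ < 1)
    (hne : X * (4 * X ^ 2 + b * X + 4 * γ) ≠ 0)
    (hD : Z * (X * (4 * X ^ 2 + b * X + 4 * γ)) = (X ^ 2 - γ) ^ 2) :
    S05_Rel (v γ) (S05_clip (v γ) (v X) * S05_clip (v γ) (v X)) (S05_clip (v γ) (v Z)) := by
  have hμ0 : 0 < v γ := zero_lt_iff.2 ((Valuation.ne_zero_iff v).2 hγ0)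
  have hX0 : X ≠ 0 := left_ne_zero_of_mul hne
  have hQ0 : 4 * X ^ 2 + b * X + 4 * γ ≠ 0 := right_ne_zero_of_mul hne
  have hg0 : 0 < v X := zero_lt_iff.2 ((Valuation.ne_zero_iff v).2 hX0)
  have hq0 : 0 < v (4 * X ^ 2 + b * X + 4 * γ) :=
    zero_lt_iff.2 ((Valuation.ne_zero_iff v).2 hQ0)
  have hV : v Z * (v X * v (4 * X ^ 2 + b * X + 4 * γ)) = v (X ^ 2 - γ) ^ 2 := by
    have := congrArg v hD
    rwa [map_mul, map_mul, map_pow] at this
  have hY : v (X ^ 2) = v X * v X := by rw [map_pow, pow_two]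
  have hQle := S13_lv_val_Q_le v (X := X) (γ := γ) hb
  -- a general principle: `z * w = n²`, `w ≤ n²` ⇒ `1 ≤ z`
  have big : ∀ z w n : Γ, 0 < w → z * w = n → w ≤ n → 1 ≤ z := by
    intro z w n hw h hle
    have : 1 * w ≤ z * w := by rw [h, one_mul]; exact hle
    exact le_of_mul_le_mul_right this hw
  rcases le_or_gt (v X) (v γ) with h3 | h3
  · -- `g ≤ μ`
    have hYlt : v (X ^ 2) < v γ := by
      rw [hY]
      exact (mul_le_mul' h3 h3).trans_lt (mul_lt_of_lt_one_left hμ0 hγ1)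
    have hn : v (X ^ 2 - γ) = v γ := Valuation.map_sub_eq_of_lt_right v hYlt
    have hq : v (4 * X ^ 2 + b * X + 4 * γ) ≤ v γ :=
      hQle.trans (max_le (max_le (hY ▸ hYlt.le) h3) le_rfl)
    have hz : 1 ≤ v Z := by
      refine big _ _ _ (mul_pos hg0 hq0) hV ?_
      rw [hn, pow_two (v γ)]
      exact mul_le_mul' h3 hq
    rw [S05_clip_of_le hγ1.le h3, S05_clip_of_one_le hγ1.le hz]
    exact S05_la_rel_sq_one hμ0.ne'
  · rcases lt_or_ge (v X) 1 with h1 | h1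
    · -- `μ < g < 1`
      rw [S13_lv_val_Q_eq v hb h3 h1, ← hY] at hV
      have hw1 : v (X ^ 2) ≤ 1 := by
        rw [hY]; exact (mul_le_mul' h1.le h1.le).trans (by rw [one_mul])
      have hw2 : v γ ^ 2 ≤ v (X ^ 2) := by
        rw [hY, pow_two]; exact mul_le_mul' h3.le h3.le
      have := S13_lv_fold v hγ0 hγ1 hw1 hw2 hV
      rw [hY] at this
      rwa [S05_clip_of_mem h3.le h1.le]
    · -- `1 ≤ g`
      have hgg : v X ≤ v X * v X := le_mul_of_one_le_right' h1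
      have hY1 : 1 ≤ v X * v X := h1.trans hgg
      have hn : v (X ^ 2 - γ) = v X * v X := by
        rw [Valuation.map_sub_eq_of_lt_left v (by rw [hY]; exact hγ1.trans_le hY1), hY]
      have hq : v (4 * X ^ 2 + b * X + 4 * γ) ≤ v X * v X :=
        hQle.trans (max_le (max_le le_rfl hgg) (hγ1.le.trans hY1))
      have hz : 1 ≤ v Z := by
        refine big _ _ _ (mul_pos hg0 hq0) hV ?_
        rw [hn, pow_two (v X * v X)]
        exact mul_le_mul' hgg hq
      rw [S05_clip_of_one_le hγ1.le h1, S05_clip_of_one_le hγ1.le hz, one_mul]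
      exact S05_la_rel_refl _ _

end double

end Fermat.Agent.S13
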