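import Mathlib
import Fermat.Agent.S51.TorsCommon
import Fermat.Agent.S05.Defs
import Fermat.Agent.S05.Identities
import Fermat.Agent.S05.NodeDefs
import Fermat.Agent.S05.LvlQuad
import Fermat.Agent.S05.NodeLevel
import Fermat.Agent.S13.TwoLvlCore

/-!
# S13, block L2d (point level): the level function at the node `(0,0)` in any residue
characteristic (in particular `2`)

`W : y² + xy = x³ + a₂x² + a₄x` (`a₁ = 1`, `a₃ = a₆ = 0`), `A` a valuation subring with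
`0 < v a₄ < 1`, `v b₂ = 1`.  `S13_lv_lvl W A P = clip (v a₄) (v x(P))`, `= 1` at `0`.

* `S13_lv_add_sub` : multiset identity `{lvl (P₁+P₂), lvl (P₁-P₂)} ~ {lvl P₁ lvl P₂, lvl P₁ / lvl P₂}`;
* `S13_lv_nsmul` : `lvl (j • P) ~ lvl P ^ j`;
* `S13_lv_node_level` : a `p`-torsion point (`p` odd) with `v x < 1` has `v a₄ < v x` and
  `(v x) ^ p ∈ ⟨(v a₄)²⟩`.
-/

set_option autoImplicit false
set_option linter.unusedSectionVars false

namespace Fermat.Agent.S13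

open WeierstrassCurve Fermat.Agent.S51 Fermat.Agent.S05

variable {K : Type*} [Field K] [DecidableEq K] {W : WeierstrassCurve.Affine K}
  (A : ValuationSubring K)

/-- the level of a point at the node `(0,0)`, clipped to `[v a₄, 1]`. -/
noncomputable def S13_lv_lvl (W : WeierstrassCurve.Affine K) (A : ValuationSubring K) :
    W.Point → A.ValueGroup
  | .zero => 1
  | .some x _ _ => S05_clip (A.valuation W.a₄) (A.valuation x)

omit [DecidableEq K] in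
lemma S13_lv_lvl_zero : S13_lv_lvl W A (0 : W.Point) = 1 := rfl

omit [DecidableEq K] in
lemma S13_lv_lvl_some {x y : K} (h : W.Nonsingular x y) :
    S13_lv_lvl W A (Affine.Point.some x y h) = S05_clip (A.valuation W.a₄) (A.valuation x) :=
  rfl

omit [DecidableEq K] in
lemma S13_lv_lvl_of_isX {P : W.Point} {x : K} (h : S51_c_IsX P x) :
    S13_lv_lvl W A P = S05_clip (A.valuation W.a₄) (A.valuation x) := by
  obtain ⟨y, hy, rfl⟩ := h
  rfl

lemma S13_lv_lvl_neg (P : W.Point) : S13_lv_lvl W A (-P) = S13_lv_lvl W A P := by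
  by_cases hP : P = 0
  · subst hP; rw [neg_zero]
  · obtain ⟨x, hx⟩ := S51_c_exists_isX_of_ne_zero hP
    rw [S13_lv_lvl_of_isX A hx, S13_lv_lvl_of_isX A hx.neg]

omit [DecidableEq K] in
lemma S13_lv_lvl_ne_zero (h4 : W.a₄ ≠ 0) (P : W.Point) : S13_lv_lvl W A P ≠ 0 := by
  have h0 : 0 < A.valuation W.a₄ := zero_lt_iff.2 ((Valuation.ne_zero_iff _).2 h4)
  rcases P with _ | ⟨x, y, h⟩
  · exact one_ne_zero
  · exact (lt_of_lt_of_le h0 (le_max_left _ _)).ne'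

section identities

variable (h1 : W.a₁ = 1) (h3 : W.a₃ = 0) (h6 : W.a₆ = 0)

include h1 h3 h6

omit [DecidableEq K] in
lemma S13_lv_b₂ : W.b₂ = 1 + 4 * W.a₂ := by
  simp only [WeierstrassCurve.b₂, h1]; ring

omit [DecidableEq K] in
lemma S13_lv_b₄ : W.b₄ = 2 * W.a₄ := by
  simp only [WeierstrassCurve.b₄, h1, h3]; ring

omit [DecidableEq K] in
lemma S13_lv_b₆ : W.b₆ = 0 := by
  simp only [WeierstrassCurve.b₆, h3, h6]; ring

omit [DecidableEq K] in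
lemma S13_lv_b₈ : W.b₈ = -W.a₄ ^ 2 := by
  simp only [WeierstrassCurve.b₈, h1, h3, h6]; ring

/-- product identity at the node `(0,0)`. -/
lemma S13_lv_mul_identity {P₁ P₂ : W.Point} {x₁ x₂ xs xd : K}
    (hx₁ : S51_c_IsX P₁ x₁) (hx₂ : S51_c_IsX P₂ x₂) (hne : x₁ ≠ x₂)
    (hs : S51_c_IsX (P₁ + P₂) xs) (hd : S51_c_IsX (P₁ - P₂) xd) :
    xs * xd * (x₁ - x₂) ^ 2 = (x₁ * x₂ - W.a₄) ^ 2 := by
  rw [S05_mul_identity hx₁ hx₂ hne hs hd, S13_lv_b₄ h1 h3 h6, S13_lv_b₆ h1 h3 h6,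
    S13_lv_b₈ h1 h3 h6]
  ring

/-- sum identity at the node `(0,0)`. -/
lemma S13_lv_add_identity {P₁ P₂ : W.Point} {x₁ x₂ xs xd : K}
    (hx₁ : S51_c_IsX P₁ x₁) (hx₂ : S51_c_IsX P₂ x₂) (hne : x₁ ≠ x₂)
    (hs : S51_c_IsX (P₁ + P₂) xs) (hd : S51_c_IsX (P₁ - P₂) xd) :
    (xs + xd) * (x₁ - x₂) ^ 2 = 2 * (x₁ + x₂) * (x₁ * x₂ + W.a₄) + W.b₂ * (x₁ * x₂) := by
  rw [S05_add_identity hx₁ hx₂ hne hs hd, S13_lv_b₄ h1 h3 h6, S13_lv_b₆ h1 h3 h6]
  ring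

lemma S13_lv_eval_Ψ₂Sq (x : K) :
    W.Ψ₂Sq.eval x = x * (4 * x ^ 2 + W.b₂ * x + 4 * W.a₄) := by
  rw [S05_eval_Ψ₂Sq, S13_lv_b₄ h1 h3 h6, S13_lv_b₆ h1 h3 h6]
  ring

lemma S13_lv_eval_Φ_two (x : K) : (W.Φ 2).eval x = (x ^ 2 - W.a₄) ^ 2 := by
  rw [S05_eval_Φ_two, S13_lv_b₄ h1 h3 h6, S13_lv_b₆ h1 h3 h6, S13_lv_b₈ h1 h3 h6]
  ring

variable (h4 : W.a₄ ≠ 0) (h4' : A.valuation W.a₄ < 1) (hb₂ : A.valuation W.b₂ = 1)

include h4 h4' hb₂

/-- **Doubling**: `lvl (2P) ~ lvl P * lvl P`. -/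
theorem S13_lv_lvl_double (P : W.Point) :
    S05_Rel (A.valuation W.a₄) (S13_lv_lvl W A P * S13_lv_lvl W A P)
      (S13_lv_lvl W A (P + P)) := by
  by_cases hP0 : P = 0
  · subst hP0
    rw [add_zero, S13_lv_lvl_zero, one_mul]
    exact S05_la_rel_refl _ _
  obtain ⟨x, hx⟩ := S51_c_exists_isX_of_ne_zero hP0
  rw [S13_lv_lvl_of_isX A hx]
  by_cases h2P : P + P = 0
  · rw [h2P, S13_lv_lvl_zero]
    have h0 : W.Ψ₂Sq.eval x = 0 := hx.add_self_eq_zero_iff.1 h2P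
    rw [S13_lv_eval_Ψ₂Sq h1 h3 h6] at h0
    exact S13_lv_double_zero A.valuation hb₂ h4 h4' h0
  · obtain ⟨x₂, hx₂, hne, hmul⟩ := hx.exists_add_self h2P
    rw [S13_lv_lvl_of_isX A hx₂]
    rw [S13_lv_eval_Ψ₂Sq h1 h3 h6] at hne hmul
    rw [S13_lv_eval_Φ_two h1 h3 h6] at hmul
    exact S13_lv_double A.valuation hb₂ h4 h4' hne hmul

/-- **Multiset identity** at the node `(0,0)`, any residue characteristic. -/
theorem S13_lv_add_sub (P₁ P₂ : W.Point) :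
    (S05_Rel (A.valuation W.a₄) (S13_lv_lvl W A P₁ * S13_lv_lvl W A P₂)
          (S13_lv_lvl W A (P₁ + P₂)) ∧
        S05_Rel (A.valuation W.a₄) (S13_lv_lvl W A P₁ / S13_lv_lvl W A P₂)
          (S13_lv_lvl W A (P₁ - P₂))) ∨
      (S05_Rel (A.valuation W.a₄) (S13_lv_lvl W A P₁ / S13_lv_lvl W A P₂)
          (S13_lv_lvl W A (P₁ + P₂)) ∧
        S05_Rel (A.valuation W.a₄) (S13_lv_lvl W A P₁ * S13_lv_lvl W A P₂)
          (S13_lv_lvl W A (P₁ - P₂))) := by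
  by_cases hP1 : P₁ = 0
  · subst hP1
    left
    rw [zero_add, zero_sub, S13_lv_lvl_neg, S13_lv_lvl_zero, one_mul, one_div]
    exact ⟨S05_la_rel_refl _ _, S05_la_rel_of_inv (by rw [inv_inv]; exact S05_la_rel_refl _ _)⟩
  by_cases hP2 : P₂ = 0
  · subst hP2
    left
    rw [add_zero, sub_zero, S13_lv_lvl_zero, mul_one, div_one]
    exact ⟨S05_la_rel_refl _ _, S05_la_rel_refl _ _⟩
  obtain ⟨x₁, hx₁⟩ := S51_c_exists_isX_of_ne_zero hP1
  obtain ⟨x₂, hx₂⟩ := S51_c_exists_isX_of_ne_zero hP2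
  by_cases hne : x₁ = x₂
  · subst hne
    have hl : S13_lv_lvl W A P₁ = S13_lv_lvl W A P₂ := by
      rw [S13_lv_lvl_of_isX A hx₁, S13_lv_lvl_of_isX A hx₂]
    have hl0 := S13_lv_lvl_ne_zero A h4 P₂
    have hdbl := S13_lv_lvl_double A h1 h3 h6 h4 h4' hb₂
    rcases hx₁.eq_or_eq_neg hx₂ with h | h
    · subst h
      left
      rw [sub_self, S13_lv_lvl_zero, div_self hl0]
      exact ⟨hdbl _, S05_la_rel_refl _ _⟩
    · subst h
      right
      rw [neg_add_cancel, S13_lv_lvl_zero, hl, div_self hl0]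
      refine ⟨S05_la_rel_refl _ _, ?_⟩
      have e : -P₂ - P₂ = -(P₂ + P₂) := by abel
      rw [e, S13_lv_lvl_neg]
      exact hdbl _
  · obtain ⟨xs, xd, hs, hd⟩ := S05_exists_isX_add_sub hx₁ hx₂ hne
    have hPi := S13_lv_mul_identity h1 h3 h6 hx₁ hx₂ hne hs hd
    have hSi := S13_lv_add_identity h1 h3 h6 hx₁ hx₂ hne hs hd
    rw [S13_lv_lvl_of_isX A hx₁, S13_lv_lvl_of_isX A hx₂, S13_lv_lvl_of_isX A hs,
      S13_lv_lvl_of_isX A hd]
    exact S13_lv_core A.valuation hb₂ h4 h4' hne hPi hSi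

/-- `lvl (j • P) ~ lvl P ^ j`. -/
theorem S13_lv_nsmul (P : W.Point) (j : ℕ) :
    S05_Rel (A.valuation W.a₄) (S13_lv_lvl W A P ^ j) (S13_lv_lvl W A (j • P)) :=
  S05_nl_rel_nsmul ((Valuation.ne_zero_iff _).2 h4) (S13_lv_lvl W A) (S13_lv_lvl_zero A)
    (S13_lv_lvl_ne_zero A h4) (S13_lv_add_sub A h1 h3 h6 h4 h4' hb₂) P j

end identities

/-- **Level of a torsion point at the node** (dispatch statement): a `p`-torsion point
(`p` an odd prime) with `v x < 1` has `v a₄ < v x` and `(v x) ^ p ∈ ⟨(v a₄)²⟩`. -/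
theorem S13_lv_node_level (hW : S05_Integral W A) (h1 : W.a₁ = 1) (h3 : W.a₃ = 0)
    (h6 : W.a₆ = 0) (h4 : W.a₄ ≠ 0) (h4' : A.valuation W.a₄ < 1)
    (hb₂ : A.valuation W.b₂ = 1) {x y : K} (h : W.Nonsingular x y) {p : ℕ} (hp : p.Prime)
    (hp2 : p ≠ 2) (hP : p • Affine.Point.some x y h = 0) (hX : A.valuation x < 1) :
    A.valuation W.a₄ < A.valuation x ∧
      ∃ k : ℤ, A.valuation x ^ p = A.valuation W.a₄ ^ (2 * k) := by
  have _ := hW
  set μ := A.valuation W.a₄ with hμdef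
  have hμ : μ ≠ 0 := (Valuation.ne_zero_iff _).2 h4
  have hodd : ¬ 2 ∣ p := fun h2 =>
    hp2 ((Nat.prime_dvd_prime_iff_eq Nat.prime_two hp).1 h2).symm
  have hrel := S13_lv_nsmul A h1 h3 h6 h4 h4' hb₂ (Affine.Point.some x y h) p
  rw [hP, S13_lv_lvl_zero, S13_lv_lvl_some] at hrel
  have hclip : S05_clip μ (A.valuation x) = max μ (A.valuation x) := by
    rw [S05_clip, min_eq_right hX.le]
  rw [hclip] at hrel
  have hL : ∃ k : ℤ, (max μ (A.valuation x)) ^ p = μ ^ (2 * k) := by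
    obtain ⟨k, hk | hk⟩ := hrel
    · refine ⟨-k, ?_⟩
      rw [mul_neg, zpow_neg]
      exact eq_inv_of_mul_eq_one_left hk.symm
    · refine ⟨k, ?_⟩
      have h2 : (max μ (A.valuation x)) ^ p ≠ 0 :=
        pow_ne_zero _ (ne_of_gt (lt_of_lt_of_le (zero_lt_iff.2 hμ) (le_max_left _ _)))
      have h3 := hk.symm
      rw [inv_mul_eq_one₀ h2] at h3
      exact h3
  have hlt : μ < A.valuation x := by
    by_contra hcon
    rw [not_lt] at hcon
    rw [max_eq_left hcon] at hL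
    obtain ⟨k, hk⟩ := hL
    rw [← zpow_natCast] at hk
    have := S05_nl_zpow_inj hμ h4' hk
    exact hodd ⟨k.toNat, by omega⟩
  refine ⟨hlt, ?_⟩
  rw [max_eq_right hlt.le] at hL
  exact hL

end Fermat.Agent.S13
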