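import Mathlib
import Fermat.Agent.S13.TwoFrey
import Fermat.Agent.S13.TwoLvl
import Fermat.Agent.S05.KernelGen
import Fermat.Agent.S05.Identities
import Fermat.Agent.S05.Final
import Fermat.Agent.Lib.FrobExists

/-!
# S13, block L2d: the Frey curve has no rational point of order `p`

`A` is a valuation subring of `ℚbar` over `2`.  Let `Q = (x, y) ≠ 0` be a rational point with
`p • Q = 0`.  Then `x ∈ A` (no torsion in the kernel of reduction, `S05_isX_mem_of_torsion_gen`).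

* `v x < 1` (`Q` reduces to the node): by the level theorem `S13_lv_node_level`,
  `v a₄ < v x` and `(v x) ^ p = (v a₄) ^ (2 k)`.  As `x ∈ ℚ`, `v x = (v 2) ^ j`, and
  `v a₄ = (v 2) ^ m` with `p ∤ 2 m`: `j p = 2 m k`, `0 < j < m`, impossible.
* `v x = 1`: apply the previous case to `2 Q`; otherwise `x(Q) ≡ x(2Q) ≡ 1` modulo `𝔪`
  (rational units), `x(2Q) ≠ x(Q)`, and the sum identity
  `(x(3Q) + x(Q)) (x(2Q) - x(Q))² = 2 x₂ x (x₂ + x) + b₂ x₂ x + b₄ (x₂ + x) + b₆` has a unit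
  on the right: `x(3Q) ∉ A`, a contradiction.
-/

set_option autoImplicit false

namespace Fermat.Agent.S13

open WeierstrassCurve WeierstrassCurve.Affine WeierstrassCurve.Affine.Point
open Fermat.Agent.S05 Fermat.Agent.S51 Fermat.Agent.Lib

local notation "ℚbar" => AlgebraicClosure ℚ
local notation "Gℚ" => (AlgebraicClosure ℚ ≃ₐ[ℚ] AlgebraicClosure ℚ)

variable {A : ValuationSubring ℚbar}

/-- a nonzero integer is a power of `2` times an odd integer. -/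
theorem S13_tr_int_decomp {n : ℤ} (hn : n ≠ 0) :
    ∃ (e : ℕ) (m : ℤ), ¬ (2 : ℤ) ∣ m ∧ n = 2 ^ e * m := by
  obtain ⟨e, m, hm, h⟩ := WfDvdMonoid.max_power_factor hn Int.prime_two.irreducible
  exact ⟨e, m, hm, h⟩

/-- a nonzero rational number is `2 ^ k * m / n` with `m`, `n` odd integers. -/
theorem S13_tr_rat_decomp {z : ℚ} (hz : z ≠ 0) :
    ∃ (k : ℤ) (m n : ℤ), ¬ (2 : ℤ) ∣ m ∧ ¬ (2 : ℤ) ∣ n ∧
      algebraMap ℚ ℚbar z = (2 : ℚbar) ^ k * (m : ℚbar) / (n : ℚbar) := by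
  have hnum : z.num ≠ 0 := Rat.num_ne_zero.2 hz
  have hden : (z.den : ℤ) ≠ 0 := by exact_mod_cast z.den_nz
  obtain ⟨e, m, hm, he⟩ := S13_tr_int_decomp hnum
  obtain ⟨f, n, hn, hf⟩ := S13_tr_int_decomp hden
  refine ⟨(e : ℤ) - f, m, n, hm, hn, ?_⟩
  have hn0 : (n : ℚbar) ≠ 0 := by
    intro h
    have : n = 0 := by exact_mod_cast h
    exact hn (this ▸ dvd_zero _)
  have h2 : (2 : ℚbar) ≠ 0 := two_ne_zero
  have hz' : algebraMap ℚ ℚbar z = (z.num : ℚbar) / ((z.den : ℤ) : ℚbar) := by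
    conv_lhs => rw [← Rat.num_div_den z]
    rw [map_div₀]
    simp
  rw [hz', he, hf]
  push_cast
  rw [zpow_sub₀ h2, zpow_natCast, zpow_natCast]
  field_simp

/-- the valuation of a nonzero rational number is an integral power of `v 2`. -/
theorem S13_tr_rat_val (hA : (2 : ℚbar) ∈ A.nonunits) {z : ℚ} (hz : z ≠ 0) :
    ∃ k : ℤ, A.valuation (algebraMap ℚ ℚbar z) = A.valuation (2 : ℚbar) ^ k := by
  obtain ⟨k, m, n, hm, hn, h⟩ := S13_tr_rat_decomp hz
  refine ⟨k, ?_⟩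
  rw [h, map_div₀, map_mul, map_zpow₀, S13_two_val_odd hA hm, S13_two_val_odd hA hn, mul_one,
    div_one]

/-- `k ↦ v 2 ^ k` is injective. -/
theorem S13_tr_zpow_inj (hA : (2 : ℚbar) ∈ A.nonunits) {k l : ℤ}
    (h : A.valuation (2 : ℚbar) ^ k = A.valuation (2 : ℚbar) ^ l) : k = l :=
  zpow_right_injective₀ (zero_lt_iff.2 (S13_two_val_two_ne A)) (S13_two_val_two_lt hA).ne h

/-- `k ↦ v 2 ^ k` is strictly antitone. -/
theorem S13_tr_zpow_lt (hA : (2 : ℚbar) ∈ A.nonunits) {k l : ℤ} :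
    A.valuation (2 : ℚbar) ^ k < A.valuation (2 : ℚbar) ^ l ↔ l < k :=
  zpow_lt_zpow_iff_right_of_lt_one₀ (zero_lt_iff.2 (S13_two_val_two_ne A))
    (S13_two_val_two_lt hA)

/-- a rational unit is congruent to `1`. -/
theorem S13_tr_rat_unit (hA : (2 : ℚbar) ∈ A.nonunits) {z : ℚ}
    (hz : A.valuation (algebraMap ℚ ℚbar z) = 1) :
    A.valuation (algebraMap ℚ ℚbar z - 1) < 1 := by
  have hz0 : z ≠ 0 := by
    rintro rfl
    rw [_root_.map_zero, _root_.map_zero] at hz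
    exact zero_ne_one hz
  obtain ⟨k, m, n, hm, hn, h⟩ := S13_tr_rat_decomp hz0
  have hv : A.valuation (algebraMap ℚ ℚbar z) = A.valuation (2 : ℚbar) ^ k := by
    rw [h, map_div₀, map_mul, map_zpow₀, S13_two_val_odd hA hm, S13_two_val_odd hA hn, mul_one,
      div_one]
  have hk : k = 0 := by
    apply S13_tr_zpow_inj hA
    rw [← hv, hz, zpow_zero]
  subst hk
  rw [zpow_zero, one_mul] at h
  have hn0 : (n : ℚbar) ≠ 0 := by
    intro h
    have : n = 0 := by exact_mod_cast h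
    exact hn (this ▸ dvd_zero _)
  have e : algebraMap ℚ ℚbar z - 1 = ((m - n : ℤ) : ℚbar) / (n : ℚbar) := by
    rw [h]
    push_cast
    field_simp
  have hmn : (2 : ℤ) ∣ m - n := by omega
  obtain ⟨j, hj⟩ := hmn
  rw [e, map_div₀, S13_two_val_odd hA hn, div_one, hj]
  push_cast
  rw [map_mul]
  have hj1 : A.valuation (j : ℚbar) ≤ 1 := (A.valuation_le_one_iff _).2 (S05_intCast_mem A j)
  calc A.valuation (2 : ℚbar) * A.valuation (j : ℚbar) ≤ A.valuation (2 : ℚbar) * 1 := by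
        gcongr
    _ < 1 := by rw [mul_one]; exact S13_two_val_two_lt hA

/-- the arithmetic contradiction: `j p = 2 m k`, `0 < j < m`, `p ∤ 2 m`. -/
theorem S13_tr_arith {p : ℕ} (hp : p.Prime) {m : ℕ} (hpm : ¬ p ∣ 2 * m) {j k : ℤ}
    (h : j * (p : ℤ) = (m : ℤ) * (2 * k)) (h0 : 0 < j) (hjm : j < (m : ℤ)) : False := by
  have hp' : Prime (p : ℤ) := Nat.prime_iff_prime_int.1 hp
  have hdvd : (p : ℤ) ∣ ((2 * m : ℕ) : ℤ) * k := by
    refine ⟨j, ?_⟩
    push_cast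
    linear_combination -h
  rcases hp'.dvd_or_dvd hdvd with h1 | h1
  · exact hpm (Int.natCast_dvd_natCast.1 h1)
  · obtain ⟨k', rfl⟩ := h1
    have hp0 : (p : ℤ) ≠ 0 := by exact_mod_cast hp.ne_zero
    have hj : j = 2 * (m : ℤ) * k' := by
      apply mul_right_cancel₀ hp0
      rw [h]
      ring
    have hm0 : (0 : ℤ) ≤ m := Int.natCast_nonneg m
    have hk' : 0 < k' := by
      by_contra hk
      rw [not_lt] at hk
      have : 2 * (m : ℤ) * k' ≤ 0 := mul_nonpos_of_nonneg_of_nonpos (by positivity) hk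
      omega
    have : 2 * (m : ℤ) * 1 ≤ 2 * (m : ℤ) * k' :=
      mul_le_mul_of_nonneg_left (by omega) (by positivity)
    omega

variable (P : FreyPackage)

/-- rational points have rational `X`-coordinate. -/
theorem S13_tr_rat_of_fixed {Q : (P.freyCurve⁄ℚbar).Point} (hfix : ∀ σ : Gℚ, σ • Q = Q)
    {x : ℚbar} (hx : S51_c_IsX Q x) : ∃ r : ℚ, algebraMap ℚ ℚbar r = x := by
  apply S51_c_exists_rat_of_fixed
  intro σ
  have h := S51_c_isX_smul σ hx
  rw [hfix σ] at h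
  exact h.unique hx

/-- multiples of rational points are rational. -/
theorem S13_tr_fixed_nsmul {Q : (P.freyCurve⁄ℚbar).Point} (hfix : ∀ σ : Gℚ, σ • Q = Q)
    (n : ℕ) (σ : Gℚ) : σ • (n • Q) = n • Q := by
  rw [S05_smul_nsmul, hfix σ]

/-- `x`-coordinates of `p`-torsion points are integral at `2`. -/
theorem S13_tr_mem (hA : (2 : ℚbar) ∈ A.nonunits) {Q : (P.freyCurve⁄ℚbar).Point}
    (hQ : P.p • Q = 0) {x : ℚbar} (hx : S51_c_IsX Q x) : x ∈ A :=
  S05_isX_mem_of_torsion_gen A (S13_two_integral P hA) (S13_two_val_p P hA) hQ hx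

/-- case `v x < 1`: a rational point of order `p` does not reduce to the node. -/
theorem S13_tr_node (hA : (2 : ℚbar) ∈ A.nonunits) {Q : (P.freyCurve⁄ℚbar).Point}
    (hQ : P.p • Q = 0) (hfix : ∀ σ : Gℚ, σ • Q = Q) {x : ℚbar} (hx : S51_c_IsX Q x)
    (hv : A.valuation x < 1) : False := by
  obtain ⟨r, hr⟩ := S13_tr_rat_of_fixed P hfix hx
  obtain ⟨y, h, rfl⟩ := hx
  obtain ⟨hlt, k, hk⟩ := S13_lv_node_level A (S13_two_integral P hA) (S05_frey_a₁ P)
    (S05_frey_a₃ P) (S05_frey_a₆ P) (S13_two_a₄_ne P) (S13_two_a₄_lt P hA)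
    (S13_two_b₂_unit P hA) h P.pp (by have := P.hp5; omega) hQ hv
  obtain ⟨m, hm, hpm, hm4⟩ := S13_two_val_a₄ P hA
  have hr0 : r ≠ 0 := by
    rintro rfl
    rw [_root_.map_zero] at hr
    rw [← hr, _root_.map_zero] at hlt
    exact not_lt_zero hlt
  obtain ⟨j, hj⟩ := S13_tr_rat_val hA hr0
  rw [hr] at hj
  rw [hj, hm4] at hk hlt
  rw [hj] at hv
  have h1 : j * (P.p : ℤ) = (m : ℤ) * (2 * k) := by
    apply S13_tr_zpow_inj hA
    rw [zpow_mul, zpow_mul, zpow_natCast, zpow_natCast]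
    exact hk
  have h2 : j < (m : ℤ) := by
    rw [← zpow_natCast] at hlt
    exact (S13_tr_zpow_lt hA).1 hlt
  have h3 : 0 < j := by
    rw [← zpow_zero (A.valuation (2 : ℚbar))] at hv
    exact (S13_tr_zpow_lt hA).1 hv
  exact S13_tr_arith P.pp hpm h1 h3 h2

/-- a nonzero point of order `p ≥ 5` is not killed by `3`. -/
theorem S13_tr_three_ne {Q : (P.freyCurve⁄ℚbar).Point} (hQ : P.p • Q = 0) (hQ0 : Q ≠ 0) :
    Q + Q + Q ≠ 0 := by
  intro h
  have h3 : 3 • Q = 0 := by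
    rw [succ_nsmul, two_nsmul]
    exact h
  have d1 := addOrderOf_dvd_of_nsmul_eq_zero h3
  have d2 := addOrderOf_dvd_of_nsmul_eq_zero hQ
  have hcop : Nat.Coprime 3 P.p :=
    (Nat.coprime_primes Nat.prime_three P.pp).2 (by have := P.hp5; omega)
  have h1 : addOrderOf Q = 1 := Nat.eq_one_of_dvd_coprimes hcop d1 d2
  exact hQ0 (AddMonoid.addOrderOf_eq_one_iff.1 h1)

/-- case `v x = 1`: a rational point of order `p` does not reduce to an affine nonsingular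
point. -/
theorem S13_tr_unit (hA : (2 : ℚbar) ∈ A.nonunits) {Q : (P.freyCurve⁄ℚbar).Point}
    (hQ : P.p • Q = 0) (hfix : ∀ σ : Gℚ, σ • Q = Q) {x : ℚbar} (hx : S51_c_IsX Q x)
    (hv : A.valuation x = 1) : False := by
  have hQ0 : Q ≠ 0 := hx.ne_zero
  have h2Q : Q + Q ≠ 0 := S05_two_nsmul_ne_zero P.hp_odd hQ hQ0
  obtain ⟨x₂, hx₂⟩ := S51_c_exists_isX_of_ne_zero h2Q
  have hQ2 : P.p • (Q + Q) = 0 := by rw [nsmul_add, hQ, add_zero]
  have hfix2 : ∀ σ : Gℚ, σ • (Q + Q) = Q + Q := fun σ => by rw [S51_c_smul_add, hfix σ]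
  have hx₂A : x₂ ∈ A := S13_tr_mem P hA hQ2 hx₂
  have hxA : x ∈ A := S13_tr_mem P hA hQ hx
  have hv₂ : A.valuation x₂ = 1 := by
    rcases lt_or_eq_of_le ((A.valuation_le_one_iff _).2 hx₂A) with h | h
    · exact (S13_tr_node P hA hQ2 hfix2 hx₂ h).elim
    · exact h
  obtain ⟨r, hr⟩ := S13_tr_rat_of_fixed P hfix hx
  obtain ⟨r₂, hr₂⟩ := S13_tr_rat_of_fixed P hfix2 hx₂
  have h1 : A.valuation (x - 1) < 1 := by
    rw [← hr]
    exact S13_tr_rat_unit hA (by rw [hr]; exact hv)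
  have h2 : A.valuation (x₂ - 1) < 1 := by
    rw [← hr₂]
    exact S13_tr_rat_unit hA (by rw [hr₂]; exact hv₂)
  have hd : A.valuation (x₂ - x) < 1 := by
    have e : x₂ - x = (x₂ - 1) - (x - 1) := by ring
    rw [e]
    exact Valuation.map_sub_lt _ h2 h1
  have h3Q : Q + Q + Q ≠ 0 := S13_tr_three_ne P hQ hQ0
  have hne : x₂ ≠ x := by
    rintro rfl
    rcases hx₂.eq_or_eq_neg hx with h | h
    · exact hQ0 (by simpa using h)
    · apply h3Q
      rw [h]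
      simp
  obtain ⟨x₃, hx₃⟩ := S51_c_exists_isX_of_ne_zero h3Q
  have hQ3 : P.p • (Q + Q + Q) = 0 := by rw [nsmul_add, hQ2, hQ, add_zero]
  have hx₃A : x₃ ∈ A := S13_tr_mem P hA hQ3 hx₃
  have hdiff : S51_c_IsX (Q + Q - Q) x := by
    rw [add_sub_cancel_right]
    exact hx
  have key := S05_add_identity hx₂ hx hne hx₃ hdiff
  have hb₄ : (P.freyCurve⁄ℚbar).b₄ = 2 * (P.freyCurve⁄ℚbar).a₄ := by
    rw [WeierstrassCurve.b₄, S05_frey_a₃, mul_zero, add_zero]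
  have ha₄A : (P.freyCurve⁄ℚbar).a₄ ∈ A :=
    (A.valuation_le_one_iff _).1 (S13_two_a₄_lt P hA).le
  rw [hb₄, S05_freyQbar_b₆] at key
  -- valuation of the left-hand side
  have hL : A.valuation ((x₃ + x) * (x₂ - x) ^ 2) < 1 := by
    rw [map_mul, map_pow]
    have h31 : A.valuation (x₃ + x) ≤ 1 := (A.valuation_le_one_iff _).2 (A.add_mem _ _ hx₃A hxA)
    have hd2 : A.valuation (x₂ - x) ^ 2 < 1 := pow_lt_one₀ zero_le hd (by norm_num)
    calc A.valuation (x₃ + x) * A.valuation (x₂ - x) ^ 2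
        ≤ 1 * A.valuation (x₂ - x) ^ 2 := by gcongr
      _ < 1 := by rw [one_mul]; exact hd2
  -- valuation of the right-hand side
  have hT : A.valuation (2 * (x₂ * x * (x₂ + x) + (P.freyCurve⁄ℚbar).a₄ * (x₂ + x))) < 1 := by
    rw [map_mul]
    have hmem : x₂ * x * (x₂ + x) + (P.freyCurve⁄ℚbar).a₄ * (x₂ + x) ∈ A :=
      A.add_mem _ _ (A.mul_mem _ _ (A.mul_mem _ _ hx₂A hxA) (A.add_mem _ _ hx₂A hxA))
        (A.mul_mem _ _ ha₄A (A.add_mem _ _ hx₂A hxA))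
    have hle := (A.valuation_le_one_iff _).2 hmem
    calc A.valuation (2 : ℚbar) * A.valuation (x₂ * x * (x₂ + x) +
          (P.freyCurve⁄ℚbar).a₄ * (x₂ + x)) ≤ A.valuation (2 : ℚbar) * 1 := by gcongr
      _ < 1 := by rw [mul_one]; exact S13_two_val_two_lt hA
  have hU : A.valuation ((P.freyCurve⁄ℚbar).b₂ * x₂ * x) = 1 := by
    rw [map_mul, map_mul, S13_two_b₂_unit P hA, hv₂, hv, one_mul, one_mul]
  have hR : A.valuation (2 * x₂ * x * (x₂ + x) + (P.freyCurve⁄ℚbar).b₂ * x₂ * x +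
      2 * (P.freyCurve⁄ℚbar).a₄ * (x₂ + x) + 0) = 1 := by
    have e : 2 * x₂ * x * (x₂ + x) + (P.freyCurve⁄ℚbar).b₂ * x₂ * x +
        2 * (P.freyCurve⁄ℚbar).a₄ * (x₂ + x) + 0 =
        (P.freyCurve⁄ℚbar).b₂ * x₂ * x +
          2 * (x₂ * x * (x₂ + x) + (P.freyCurve⁄ℚbar).a₄ * (x₂ + x)) := by ring
    rw [e, Valuation.map_add_eq_of_lt_left _ (by rw [hU]; exact hT), hU]
  rw [key, hR] at hL
  exact lt_irrefl _ hL

/-- **L2d**: the Frey curve has no rational point of order `p`. -/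
theorem S13_two_no_rational (Q : (P.freyCurve⁄ℚbar).Point) (hQ : P.p • Q = 0)
    (hfix : ∀ σ : Gℚ, σ • Q = Q) : Q = 0 := by
  by_contra hQ0
  obtain ⟨A, hA'⟩ := frobExists_exists_valuationSubring 2 Nat.prime_two
  have hA : (2 : ℚbar) ∈ A.nonunits := by simpa using hA'
  obtain ⟨x, hx⟩ := S51_c_exists_isX_of_ne_zero hQ0
  have hxA : x ∈ A := S13_tr_mem P hA hQ hx
  rcases lt_or_eq_of_le ((A.valuation_le_one_iff _).2 hxA) with h | h
  · exact S13_tr_node P hA hQ hfix hx h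
  · exact S13_tr_unit P hA hQ hfix hx h

end Fermat.Agent.S13
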