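import Mathlib
import Fermat.Prelude.Def_FLTPrelim_CofixedLine
import Fermat.Prelude.Def_FLTPrelim_Ramification
import Fermat.Agent.S05.Final
import Fermat.Agent.S05.KernelGen
import Fermat.Agent.S13.Defs
import Fermat.Agent.S13.TwoFrey

/-!
# S13, block L2b: the unit case at `2`

`A` a valuation ring of `ℚ̄` over `2`, `E` the Frey curve, `Q = (x, y)` a point of order `p`.
* `S13_two_torsion_integral`: `x, y ∈ A`;
* `S13_two_fix_unit`: if `x` is a unit of `A`, then every `σ` in the inertia group fixes `Q`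
  (`2y + x` is a unit, so `σ Q - Q` lies in the kernel of reduction, which has no `p`-torsion).

The general versions (`S13_tu_*`) take the integrality of the model as a hypothesis.
-/

set_option autoImplicit false
set_option linter.unusedSectionVars false
set_option linter.unusedVariables false

namespace Fermat.Agent.S13

open WeierstrassCurve WeierstrassCurve.Affine WeierstrassCurve.Affine.Point
open Fermat.Agent.S05 Fermat.Agent.S51

local notation "ℚbar" => AlgebraicClosure ℚ
local notation "Gℚ" => (AlgebraicClosure ℚ ≃ₐ[ℚ] AlgebraicClosure ℚ)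

section general

variable {R : Type*} {S : Type*} {K : Type*} [CommRing R] [CommRing S] [Field K]
  [DecidableEq K] {W' : Affine R} [Algebra R S] [Algebra R K] [Algebra S K]
  [IsScalarTower R S K] (A : ValuationSubring K)

/-- torsion points of order a unit of `A` are integral (any residue characteristic). -/
theorem S13_tu_integral_of_torsion {W : Affine K} (hW : S05_Integral W A)
    {x y : K} (h : W.Nonsingular x y) {n : ℕ} (hn : A.valuation (n : K) = 1)
    (hP : n • (Point.some x y h : W.Point) = 0) : x ∈ A ∧ y ∈ A := by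
  have hx : x ∈ A := S05_isX_mem_of_torsion_gen A hW hn hP ⟨y, h, rfl⟩
  exact ⟨hx, S05_y_mem A hW.a₁ hW.a₂ hW.a₃ hW.a₄ hW.a₆ h.1 hx⟩

/-- if `σ Q - Q` lies in the kernel of reduction and `Q` is torsion of order a unit of `A`,
then `σ Q = Q` (any residue characteristic). -/
theorem S13_tu_fix_of_inE1 (hW : S05_Integral (W'⁄K) A)
    {n : ℕ} (hn : A.valuation (n : K) = 1) (σ : K ≃ₐ[S] K) {Q : (W'⁄K).Point}
    (hQ : n • Q = 0) (h : S05_InE1 A (σ • Q - Q)) : σ • Q = Q := by
  have h0 : n • (σ • Q - Q) = 0 := by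
    rw [nsmul_sub, ← S05_smul_nsmul, hQ, S05_smul_zero, sub_zero]
  exact sub_eq_zero.1 (S05_eq_zero_of_inE1_gen A hW h hn h0)

/-- residue characteristic `2`, `a₁ = 1`, `a₃ = 0`: a torsion point of order a unit of `A` with
unit `x`-coordinate is fixed by inertia. -/
theorem S13_tu_fix_unit (hW : S05_Integral (W'⁄K) A) (h2 : (2 : K) ∈ A.nonunits)
    (ha₁ : (W'⁄K).a₁ = 1) (ha₃ : (W'⁄K).a₃ = 0)
    {n : ℕ} (hn : A.valuation (n : K) = 1) (σ : K ≃ₐ[S] K)
    (hσ : ∀ x ∈ A, σ x - x ∈ A.nonunits) (hσA : ∀ x, σ x ∈ A ↔ x ∈ A)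
    {x y : K} (h : (W'⁄K).Nonsingular x y)
    (hQ : n • (Point.some x y h : (W'⁄K).Point) = 0) (hx : x ∉ A.nonunits) :
    σ • (Point.some x y h : (W'⁄K).Point) = Point.some x y h := by
  obtain ⟨hxA, hyA⟩ := S13_tu_integral_of_torsion A hW h hn hQ
  have hD : 2 * y + (W'⁄K).a₁ * x + (W'⁄K).a₃ ∉ A.nonunits := by
    rw [ha₁, ha₃, one_mul, add_zero]
    intro hmem
    apply hx
    have h2y : 2 * y ∈ A.nonunits := S05_mul_mem_nonunits' A h2 hyA
    have : x = (2 * y + x) - 2 * y := by ring
    rw [this]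
    exact S05_sub_mem_nonunits A hmem h2y
  exact S13_tu_fix_of_inE1 A hW hn σ hQ (S05_sub_inE1_of_unit A hW σ hσ hσA h hxA hyA hD)

end general

section frey

variable (P : FreyPackage) (A : ValuationSubring ℚbar)

/-- L2b (i): a point of order `p` of the Frey curve is integral at every place over `2`. -/
theorem S13_two_torsion_integral (hA : (2 : ℚbar) ∈ A.nonunits) {x y : ℚbar}
    (h : (P.freyCurve⁄ℚbar).Nonsingular x y)
    (hQ : P.p • (Point.some x y h : (P.freyCurve⁄ℚbar).Point) = 0) : x ∈ A ∧ y ∈ A :=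
  S13_tu_integral_of_torsion A (S13_two_integral P hA) h (S13_two_val_p P hA) hQ

/-- L2b (ii): a point of order `p` of the Frey curve whose `x`-coordinate is a unit at a place
`A` over `2` is fixed by the inertia group at `A`. -/
theorem S13_two_fix_unit (hA : (2 : ℚbar) ∈ A.nonunits) (σ : Gℚ) (hσ : S13_Inert A σ)
    {x y : ℚbar} (h : (P.freyCurve⁄ℚbar).Nonsingular x y)
    (hQ : P.p • (Point.some x y h : (P.freyCurve⁄ℚbar).Point) = 0) (hx : x ∉ A.nonunits) :
    σ • (Point.some x y h : (P.freyCurve⁄ℚbar).Point) = Point.some x y h :=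
  S13_tu_fix_unit A (S13_two_integral P hA) hA (S05_frey_a₁ P) (S05_frey_a₃ P) (S13_two_val_p P hA)
    σ hσ.2 hσ.1 h hQ hx

/-- L2b (iii): for a point `Q` of order `p` whose `x`-coordinate is a unit at `A`, the point
`σ Q - Q` vanishes for `σ` in the inertia group at `A`. -/
theorem S13_two_sub_unit (hA : (2 : ℚbar) ∈ A.nonunits) (σ : Gℚ) (hσ : S13_Inert A σ)
    {x y : ℚbar} (h : (P.freyCurve⁄ℚbar).Nonsingular x y)
    (hQ : P.p • (Point.some x y h : (P.freyCurve⁄ℚbar).Point) = 0) (hx : x ∉ A.nonunits) :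
    σ • (Point.some x y h : (P.freyCurve⁄ℚbar).Point) - Point.some x y h = 0 :=
  sub_eq_zero.2 (S13_two_fix_unit P A hA σ hσ h hQ hx)

end frey

end Fermat.Agent.S13
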