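import Mathlib
import Fermat.Agent.S13.Defs

/-!
# S13: an automorphism stabilising a valuation subring preserves the valuation

`K/F` algebraic, `A ⊂ K` a valuation subring, `σ ∈ Aut(K/F)` with `σ A = A`.
Then `v (σ z) = v z` for all `z` (the value group is "rank one over `F`": some power of `z`
has the valuation of an element of `F`).
-/

set_option autoImplicit false

namespace Fermat.Agent.S13

section general

variable {F K : Type*} [Field F] [Field K] [Algebra F K]

/-- some positive power of an algebraic element has the valuation of an element of the base. -/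
theorem S13_vs_exists_pow (A : ValuationSubring K) {z : K} (hz : z ≠ 0)
    (halg : IsAlgebraic F z) :
    ∃ k : ℕ, 0 < k ∧ ∃ c : F, c ≠ 0 ∧ A.valuation z ^ k = A.valuation (algebraMap F K c) := by
  classical
  obtain ⟨f, hf0, hfz⟩ := halg
  set t : ℕ → K := fun i => algebraMap F K (f.coeff i) * z ^ i with ht
  have hsum : ∑ i ∈ f.support, t i = 0 := by
    have := hfz
    rw [Polynomial.aeval_def, Polynomial.eval₂_eq_sum, Polynomial.sum_def] at this
    exact this
  have hne : f.support.Nonempty := Polynomial.support_nonempty.2 hf0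
  have htne : ∀ i ∈ f.support, t i ≠ 0 := by
    intro i hi
    have hc : f.coeff i ≠ 0 := Polynomial.mem_support_iff.1 hi
    exact mul_ne_zero ((map_ne_zero (algebraMap F K)).2 hc) (pow_ne_zero _ hz)
  obtain ⟨j, hj, hjmax⟩ := Finset.exists_max_image f.support (fun i => A.valuation (t i)) hne
  -- a second index with the same valuation
  have hex : ∃ i ∈ f.support, i ≠ j ∧ A.valuation (t i) = A.valuation (t j) := by
    by_contra hcon
    have hcon : ∀ i ∈ f.support, i ≠ j → A.valuation (t i) ≠ A.valuation (t j) :=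
      fun i hi hij heq => hcon ⟨i, hi, hij, heq⟩
    have hlt : ∀ i ∈ f.support \ {j}, A.valuation (t i) < A.valuation (t j) := by
      intro i hi
      rw [Finset.mem_sdiff, Finset.mem_singleton] at hi
      exact lt_of_le_of_ne (hjmax i hi.1) (hcon i hi.1 hi.2)
    have h1 := Valuation.map_sum_eq_of_lt A.valuation hj hlt
    rw [hsum, map_zero] at h1
    exact htne j hj ((map_eq_zero A.valuation).1 h1.symm)
  obtain ⟨i, hi, hij, hv⟩ := hex
  have hci : f.coeff i ≠ 0 := Polynomial.mem_support_iff.1 hi
  have hcj : f.coeff j ≠ 0 := Polynomial.mem_support_iff.1 hj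
  have hvz : A.valuation z ≠ 0 := (map_ne_zero A.valuation).2 hz
  have hvci : A.valuation (algebraMap F K (f.coeff i)) ≠ 0 :=
    (map_ne_zero A.valuation).2 ((map_ne_zero (algebraMap F K)).2 hci)
  have hvcj : A.valuation (algebraMap F K (f.coeff j)) ≠ 0 :=
    (map_ne_zero A.valuation).2 ((map_ne_zero (algebraMap F K)).2 hcj)
  simp only [ht, map_mul, map_pow] at hv
  -- key: for `a < b`, `v z ^ (b - a) = v (c_a / c_b)`
  have key : ∀ a b : ℕ, a < b → f.coeff a ≠ 0 → f.coeff b ≠ 0 →
      A.valuation (algebraMap F K (f.coeff a)) * A.valuation z ^ a =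
        A.valuation (algebraMap F K (f.coeff b)) * A.valuation z ^ b →
      ∃ k : ℕ, 0 < k ∧ ∃ c : F, c ≠ 0 ∧
        A.valuation z ^ k = A.valuation (algebraMap F K c) := by
    intro a b hab ha hb h
    refine ⟨b - a, Nat.sub_pos_of_lt hab, f.coeff a / f.coeff b, div_ne_zero ha hb, ?_⟩
    have hvb : A.valuation (algebraMap F K (f.coeff b)) ≠ 0 :=
      (map_ne_zero A.valuation).2 ((map_ne_zero (algebraMap F K)).2 hb)
    rw [map_div₀, map_div₀, eq_div_iff hvb]
    have hpow : A.valuation z ^ b = A.valuation z ^ (b - a) * A.valuation z ^ a := by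
      rw [← pow_add, Nat.sub_add_cancel hab.le]
    rw [hpow, ← mul_assoc] at h
    have h' := mul_right_cancel₀ (pow_ne_zero a hvz) h
    rw [h', mul_comm]
  rcases lt_or_gt_of_ne hij with hlt | hgt
  · exact key i j hlt hci hcj hv
  · exact key j i hgt hcj hci hv.symm

/-- an automorphism stabilising `A` preserves units of `A`. -/
theorem S13_vs_unit (A : ValuationSubring K) (σ : K ≃ₐ[F] K) (hσA : ∀ x, σ x ∈ A ↔ x ∈ A)
    {w : K} (hw : A.valuation w = 1) : A.valuation (σ w) = 1 := by
  have hw0 : w ≠ 0 := by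
    intro h
    rw [h, map_zero] at hw
    exact zero_ne_one hw
  have h1 : w ∈ A := (A.valuation_le_one_iff w).1 hw.le
  have h2 : w⁻¹ ∈ A := by
    refine (A.valuation_le_one_iff _).1 ?_
    rw [map_inv₀, hw, inv_one]
  have h3 : A.valuation (σ w) ≤ 1 := (A.valuation_le_one_iff _).2 ((hσA w).2 h1)
  have h4 : A.valuation (σ w⁻¹) ≤ 1 := (A.valuation_le_one_iff _).2 ((hσA _).2 h2)
  rw [map_inv₀, map_inv₀] at h4
  have hσw0 : A.valuation (σ w) ≠ 0 :=
    (map_ne_zero A.valuation).2 ((map_ne_zero σ).2 hw0)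
  have h5 : 1 ≤ A.valuation (σ w) := by
    have := (inv_le_one₀ (zero_lt_iff.2 hσw0)).1 h4
    exact this
  exact le_antisymm h3 h5

/-- `p`-th powers are injective in a linearly ordered group with zero. -/
theorem S13_vs_pow_inj {Γ : Type*} [LinearOrderedCommGroupWithZero Γ] {a b : Γ} {k : ℕ}
    (hk : k ≠ 0) (h : a ^ k = b ^ k) : a = b := by
  rcases lt_trichotomy a b with hlt | heq | hgt
  · exfalso
    have : a ^ k < b ^ k := pow_lt_pow_left₀ hlt zero_le hk
    rw [h] at this
    exact lt_irrefl _ this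
  · exact heq
  · exfalso
    have : b ^ k < a ^ k := pow_lt_pow_left₀ hgt zero_le hk
    rw [h] at this
    exact lt_irrefl _ this

/-- **general form**: an `F`-automorphism of an algebraic extension `K/F` stabilising the
valuation subring `A` preserves the valuation of `A`. -/
theorem S13_val_sigma_gen [Algebra.IsAlgebraic F K] (A : ValuationSubring K) (σ : K ≃ₐ[F] K)
    (hσA : ∀ x, σ x ∈ A ↔ x ∈ A) (z : K) : A.valuation (σ z) = A.valuation z := by
  rcases eq_or_ne z 0 with rfl | hz
  · simp
  obtain ⟨k, hk, c, hc, hkc⟩ := S13_vs_exists_pow (F := F) A hz (Algebra.IsAlgebraic.isAlgebraic z)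
  have hc' : algebraMap F K c ≠ 0 := (map_ne_zero (algebraMap F K)).2 hc
  have hvc : A.valuation (algebraMap F K c) ≠ 0 := (map_ne_zero A.valuation).2 hc'
  have hw : A.valuation (z ^ k / algebraMap F K c) = 1 := by
    rw [map_div₀, map_pow, hkc, div_self hvc]
  have hσw := S13_vs_unit A σ hσA hw
  rw [map_div₀, map_pow, σ.commutes, map_div₀, map_pow, div_eq_one_iff_eq hvc] at hσw
  exact S13_vs_pow_inj hk.ne' (hσw.trans hkc.symm)

end general

local notation "ℚbar" => AlgebraicClosure ℚ
local notation "Gℚ" => (AlgebraicClosure ℚ ≃ₐ[ℚ] AlgebraicClosure ℚ)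

/-- **Lσ**: a Galois automorphism stabilising `A` preserves the valuation of `A`. -/
theorem S13_val_sigma (A : ValuationSubring ℚbar) (σ : Gℚ) (hσA : ∀ x, σ x ∈ A ↔ x ∈ A)
    (z : ℚbar) : A.valuation (σ z) = A.valuation z := by
  have : Algebra.IsAlgebraic ℚ ℚbar := AlgebraicClosure.isAlgebraic ℚ
  exact S13_val_sigma_gen A σ hσA z

/-- the same for inert automorphisms. -/
theorem S13_val_inert (A : ValuationSubring ℚbar) (σ : Gℚ) (hσ : S13_Inert A σ)
    (z : ℚbar) : A.valuation (σ z) = A.valuation z :=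
  S13_val_sigma A σ hσ.1 z

end Fermat.Agent.S13
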