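import Mathlib
import Fermat.Agent.S05.Interface
import Fermat.Agent.S05.KernelGen
import Fermat.Agent.S05.Final
import Fermat.Agent.S05.Identities
import Fermat.Agent.S05.UnitDeriv
import Fermat.Agent.S13.Defs
import Fermat.Agent.S13.TwoFrey
import Fermat.Agent.S13.ValSigma
import Fermat.Agent.S13.TwoUnit
import Fermat.Agent.S13.TwoLvl

/-!
# S13, block L2b + L2c: inertia at `2` acts unipotently on the `p`-torsion of the Frey curve

* `S13_Node2` : node datum in residue characteristic `2` (`y² + xy = x³ + a₂x² + a₄x`, `a₄ ∈ 𝔪`).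
* `S13_two_double_away` : `v x ≤ v a₄` ⇒ `x(2P) ∉ 𝔪`.
* `S13_two_branch` : branch lemma, `v a₄ < v x < 1`.
* `S13_two_unipotent` : the skeleton statement.
-/

set_option autoImplicit false

namespace Fermat.Agent.S13

open WeierstrassCurve WeierstrassCurve.Affine WeierstrassCurve.Affine.Point
open Fermat.Agent.S05 Fermat.Agent.S51




section node2

variable {K : Type*} [Field K] [DecidableEq K] {W : WeierstrassCurve.Affine K}

/-- node datum in residue characteristic `2`: `y² + xy = x³ + a₂x² + a₄x`, `a₄ ∈ 𝔪 ∖ 0`. -/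
structure S13_Node2 (W : WeierstrassCurve.Affine K) (A : ValuationSubring K) : Prop where
  int : S05_Integral W A
  two : A.valuation (2 : K) < 1
  two_ne : (2 : K) ≠ 0
  a₁ : W.a₁ = 1
  a₃ : W.a₃ = 0
  a₆ : W.a₆ = 0
  a₄_ne : W.a₄ ≠ 0
  a₄_lt : A.valuation W.a₄ < 1

variable {A : ValuationSubring K}

local notation "v" => ValuationSubring.valuation A

omit [DecidableEq K] in
lemma S13_Node2.eq (hN : S13_Node2 W A) {x y : K} (h : W.Equation x y) :
    y ^ 2 + x * y = x ^ 3 + W.a₂ * x ^ 2 + W.a₄ * x := by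
  have := (W.equation_iff x y).1 h
  rw [hN.a₁, hN.a₃, hN.a₆] at this
  linear_combination this

omit [DecidableEq K] in
lemma S13_Node2.a₄_pos (hN : S13_Node2 W A) : 0 < v W.a₄ :=
  zero_lt_iff.2 ((Valuation.ne_zero_iff _).2 hN.a₄_ne)

omit [DecidableEq K] in
lemma S13_Node2.b₂_mem (hN : S13_Node2 W A) : v W.b₂ ≤ 1 :=
  (A.valuation_le_one_iff _).2 hN.int.b₂

omit [DecidableEq K] in
lemma S13_Node2.b₄_eq (hN : S13_Node2 W A) : W.b₄ = 2 * W.a₄ := by
  rw [WeierstrassCurve.b₄, hN.a₃]; ring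

omit [DecidableEq K] in
lemma S13_Node2.b₆_eq (hN : S13_Node2 W A) : W.b₆ = 0 := by
  rw [WeierstrassCurve.b₆, hN.a₃, hN.a₆]; ring

omit [DecidableEq K] in
/-- `y ∈ A` for an integral point. -/
lemma S13_Node2.y_mem (hN : S13_Node2 W A) {x y : K} (h : W.Equation x y) (hx : v x ≤ 1) :
    v y ≤ 1 :=
  (A.valuation_le_one_iff _).2
    (S05_y_mem A hN.int.a₁ hN.int.a₂ hN.int.a₃ hN.int.a₄ hN.int.a₆ h
      ((A.valuation_le_one_iff _).1 hx))

omit [DecidableEq K] in
/-- unit `x`-coordinate ⇒ unit derivative. -/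
lemma S13_two_D_unit (hN : S13_Node2 W A) {x y : K} (h : W.Equation x y) (hx : v x = 1) :
    2 * y + W.a₁ * x + W.a₃ ∉ A.nonunits := by
  have hy := hN.y_mem h hx.le
  have h2y : v (2 * y) < 1 := by
    rw [map_mul]
    exact mul_lt_one_of_nonneg_of_lt_one_left zero_le hN.two hy
  rw [hN.a₁, hN.a₃, add_zero, one_mul, A.mem_nonunits_iff, not_lt]
  have : v (2 * y + x) = v x := Valuation.map_add_eq_of_lt_right _ (by rw [hx]; exact h2y)
  rw [this, hx]

/-- the slope `y / x` at the node is integral. -/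
lemma S13_two_slope_mem (hN : S13_Node2 W A) {x y : K} (h : W.Equation x y) (hx : v x ≤ 1)
    (ha : v W.a₄ ≤ v x) : v (y / x) ≤ 1 := by
  have hx0 : x ≠ 0 := by
    intro h0
    rw [h0, _root_.map_zero] at ha
    exact absurd ha (not_le.2 hN.a₄_pos)
  have heq := hN.eq h
  have key : (y / x) ^ 2 + y / x = x + W.a₂ + W.a₄ / x := by
    field_simp
    linear_combination heq
  by_contra hcon
  rw [not_le] at hcon
  have h1 : v (y / x) < v ((y / x) ^ 2) := by
    rw [map_pow, pow_two]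
    exact lt_mul_of_one_lt_left (lt_trans zero_lt_one hcon) hcon
  have h2 : v ((y / x) ^ 2 + y / x) = v ((y / x) ^ 2) := Valuation.map_add_eq_of_lt_left _ h1
  have h3 : v (x + W.a₂ + W.a₄ / x) ≤ 1 := by
    refine S05_v_add_le A (S05_v_add_le A hx ((A.valuation_le_one_iff _).2 hN.int.a₂)) ?_
    rw [map_div₀]
    exact div_le_one_of_le₀ ha zero_le
  rw [← key, h2] at h3
  exact absurd (lt_trans hcon h1) (not_lt.2 h3)

/-- doubling a point deep in the node (`v x ≤ v a₄`) leaves the node. -/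
theorem S13_two_double_away (hN : S13_Node2 W A) {P : W.Point} {x x₂ : K}
    (hP : S51_c_IsX P x) (h2 : S51_c_IsX (P + P) x₂) (hx : v x ≤ v W.a₄) :
    x₂ ∉ A.nonunits := by
  have hroot : W.Ψ₂Sq.eval 0 = 0 := by
    rw [S05_eval_Ψ₂Sq, hN.b₆_eq]; ring
  have hid := S05_dup_identity_shift hP h2 hroot
  rw [S05_eval_Ψ₂Sq, hN.b₄_eq, hN.b₆_eq] at hid
  have hid' : x₂ * (4 * x ^ 3 + W.b₂ * x ^ 2 + 4 * W.a₄ * x) = (x ^ 2 - W.a₄) ^ 2 := by
    have h4 : (4 : K) ≠ 0 := by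
      have : (4 : K) = 2 * 2 := by norm_num
      rw [this]; exact mul_ne_zero hN.two_ne hN.two_ne
    apply mul_left_cancel₀ h4
    linear_combination hid
  have hμ := hN.a₄_pos
  have hx1 : v x < 1 := lt_of_le_of_lt hx hN.a₄_lt
  have h4le : v (4 : K) ≤ 1 := (A.valuation_le_one_iff _).2 (S05_four_mem A)
  -- numerator
  have hx2 : v (x ^ 2) < v W.a₄ := by
    rw [map_pow, pow_two]
    rcases eq_or_ne (v x) 0 with h0 | h0
    · rw [h0, zero_mul]; exact hμ
    · exact lt_of_lt_of_le (mul_lt_of_lt_one_left (zero_lt_iff.2 h0) hx1) hx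
  have hnum : v ((x ^ 2 - W.a₄) ^ 2) = v W.a₄ ^ 2 := by
    rw [map_pow, Valuation.map_sub_eq_of_lt_right _ hx2]
  -- denominator
  have hden : v (4 * x ^ 3 + W.b₂ * x ^ 2 + 4 * W.a₄ * x) ≤ v W.a₄ ^ 2 := by
    have hxx : v x ^ 2 ≤ v W.a₄ ^ 2 := pow_le_pow_left₀ zero_le hx 2
    refine (Valuation.map_add _ _ _).trans (max_le ((Valuation.map_add _ _ _).trans
      (max_le ?_ ?_)) ?_)
    · rw [map_mul, map_pow]
      calc v 4 * v x ^ 3 ≤ 1 * v x ^ 3 := mul_le_mul' h4le le_rfl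
        _ = v x ^ 2 * v x := by rw [one_mul, pow_succ]
        _ ≤ v x ^ 2 * 1 := mul_le_mul' le_rfl hx1.le
        _ = v x ^ 2 := mul_one _
        _ ≤ v W.a₄ ^ 2 := hxx
    · rw [map_mul, map_pow]
      calc v W.b₂ * v x ^ 2 ≤ 1 * v x ^ 2 := mul_le_mul' hN.b₂_mem le_rfl
        _ = v x ^ 2 := one_mul _
        _ ≤ v W.a₄ ^ 2 := hxx
    · rw [map_mul, map_mul]
      calc v 4 * v W.a₄ * v x ≤ 1 * v W.a₄ * v W.a₄ := mul_le_mul' (mul_le_mul' h4le le_rfl) hx
        _ = v W.a₄ ^ 2 := by rw [one_mul, pow_two]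
  rw [A.mem_nonunits_iff, not_lt]
  by_contra hcon
  rw [not_le] at hcon
  have h5 := congrArg v hid'
  rw [map_mul, hnum] at h5
  have h6 : v x₂ * v (4 * x ^ 3 + W.b₂ * x ^ 2 + 4 * W.a₄ * x) < v W.a₄ ^ 2 := by
    rcases eq_or_ne (v (4 * x ^ 3 + W.b₂ * x ^ 2 + 4 * W.a₄ * x)) 0 with h0 | h0
    · rw [h0, mul_zero]; exact pow_pos hμ 2
    · exact lt_of_lt_of_le (mul_lt_of_lt_one_left (zero_lt_iff.2 h0) hcon) hden
  rw [h5] at h6
  exact lt_irrefl _ h6

/-- **Branch lemma.** Two points at the node on the same branch, with `v x₁ = v x₂` in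
`(v a₄, 1)`: the difference is away from the node. -/
theorem S13_two_branch (hN : S13_Node2 W A) {x₁ y₁ x₂ y₂ : K}
    (h₁ : W.Nonsingular x₁ y₁) (h₂ : W.Nonsingular x₂ y₂)
    (hx₂ : v x₂ < 1) (hxx : v x₁ = v x₂) (ha : v W.a₄ < v x₂) (hne : x₁ ≠ x₂)
    (hbr : v (y₁ * x₂ - y₂ * x₁) < v x₁ * v x₂) :
    ∃ x₃, S51_c_IsX (Affine.Point.some x₁ y₁ h₁ - Affine.Point.some x₂ y₂ h₂) x₃ ∧
      x₃ ∉ A.nonunits := by
  have hμ := hN.a₄_pos
  have hx₂pos : 0 < v x₂ := hμ.trans ha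
  have hx₁pos : 0 < v x₁ := hxx ▸ hx₂pos
  have hx₂0 : x₂ ≠ 0 := (Valuation.ne_zero_iff _).1 hx₂pos.ne'
  have hx₁0 : x₁ ≠ 0 := (Valuation.ne_zero_iff _).1 hx₁pos.ne'
  have hd0 : x₁ - x₂ ≠ 0 := sub_ne_zero.2 hne
  have hdpos : 0 < v (x₁ - x₂) := zero_lt_iff.2 ((Valuation.ne_zero_iff _).2 hd0)
  have hs₁ : v (y₁ / x₁) ≤ 1 := S13_two_slope_mem hN h₁.1 (hxx ▸ hx₂.le) (hxx ▸ ha.le)
  have hs₂ : v (y₂ / x₂) ≤ 1 := S13_two_slope_mem hN h₂.1 hx₂.le ha.le
  have hss : v (y₁ / x₁ - y₂ / x₂) < 1 := by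
    have e : y₁ / x₁ - y₂ / x₂ = (y₁ * x₂ - y₂ * x₁) / (x₁ * x₂) := by
      field_simp
    rw [e, map_div₀, map_mul]
    exact (div_lt_one₀ (mul_pos hx₁pos hx₂pos)).2 hbr
  have h2s : v (2 * (y₂ / x₂)) < 1 := by
    rw [map_mul]
    exact mul_lt_one_of_nonneg_of_lt_one_left zero_le hN.two hs₂
  -- `u = s₁ + s₂ + 1` is a unit
  have hu1 : v (y₁ / x₁ + y₂ / x₂) < 1 := by
    have e : y₁ / x₁ + y₂ / x₂ = (y₁ / x₁ - y₂ / x₂) + 2 * (y₂ / x₂) := by ring
    rw [e]
    exact S05_v_add_lt A hss h2s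
  have hu : v (y₁ / x₁ + y₂ / x₂ + 1) = 1 := by
    have := Valuation.map_add_eq_of_lt_right (A.valuation) (x := y₁ / x₁ + y₂ / x₂) (y := 1)
      (by rw [map_one]; exact hu1)
    rw [this, map_one]
  have hdle : v (x₁ - x₂) ≤ v x₂ := by
    refine (Valuation.map_sub _ _ _).trans (max_le hxx.le le_rfl)
  refine ⟨_, S05_isX_sub h₁ h₂ hne, ?_⟩
  have hnegY : W.negY x₂ y₂ = -y₂ - x₂ := by
    rw [Affine.negY, hN.a₁, hN.a₃]; ring
  have hN' : y₁ - W.negY x₂ y₂ =
      y₁ / x₁ * (x₁ - x₂) + (y₁ / x₁ + y₂ / x₂ + 1) * x₂ := by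
    rw [hnegY]
    field_simp
    ring
  rcases hdle.lt_or_eq with hlt | heq
  · -- `v d < v x₂`: the slope is not integral
    have hvN : v (y₁ - W.negY x₂ y₂) = v x₂ := by
      rw [hN']
      have h1 : v (y₁ / x₁ * (x₁ - x₂)) < v ((y₁ / x₁ + y₂ / x₂ + 1) * x₂) := by
        rw [map_mul, map_mul, hu, one_mul]
        exact lt_of_le_of_lt (mul_le_of_le_one_left' hs₁) hlt
      rw [Valuation.map_add_eq_of_lt_right _ h1, map_mul, hu, one_mul]
    have key := S05_val_addX_gt_one' A.valuation (a₁ := W.a₁) (a₂ := W.a₂) (x := x₂)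
      (x' := x₁) (N := y₁ - W.negY x₂ y₂) (d := x₁ - x₂)
      ((A.valuation_le_one_iff _).2 hN.int.a₁) ((A.valuation_le_one_iff _).2 hN.int.a₂)
      hx₂.le (hxx ▸ hx₂.le) (by rw [hvN]; exact hlt) hd0
    rw [A.mem_nonunits_iff, not_lt]
    have e : W.addX x₁ x₂ ((y₁ - W.negY x₂ y₂) / (x₁ - x₂)) =
        ((y₁ - W.negY x₂ y₂) / (x₁ - x₂)) ^ 2 + W.a₁ * ((y₁ - W.negY x₂ y₂) / (x₁ - x₂)) -
          W.a₂ - x₁ - x₂ := rfl
    rw [e]
    exact key.le
  · -- `v d = v x₂`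
    set s₁ := y₁ / x₁ with hs₁def
    set u := y₁ / x₁ + y₂ / x₂ + 1 with hudef
    set w := x₂ / (x₁ - x₂) with hwdef
    have hw : v w = 1 := by
      rw [hwdef, map_div₀, heq, div_self hx₂pos.ne']
    have hw1 : v (w + 1) = 1 := by
      have e : w + 1 = x₁ / (x₁ - x₂) := by
        rw [hwdef]; field_simp; ring
      rw [e, map_div₀, heq, hxx, div_self hx₂pos.ne']
    have huw1 : v (u * w + 1) = 1 := by
      have e : u * w + 1 = (u - 1) * w + (w + 1) := by ring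
      have h1 : v ((u - 1) * w) < v (w + 1) := by
        rw [map_mul, hw, mul_one, hw1]
        have : u - 1 = y₁ / x₁ + y₂ / x₂ := by rw [hudef]; ring
        rw [this]; exact hu1
      rw [e, Valuation.map_add_eq_of_lt_right _ h1, hw1]
    have hT : v (u * w * (u * w + 1)) = 1 := by
      rw [map_mul, map_mul, hu, hw, huw1]; simp
    have heq₁ := hN.eq h₁.1
    have hx3 : W.addX x₁ x₂ ((y₁ - W.negY x₂ y₂) / (x₁ - x₂)) =
        u * w * (u * w + 1) + (W.a₄ / x₁ + 2 * s₁ * u * w - x₂) := by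
      have hlam : (y₁ - W.negY x₂ y₂) / (x₁ - x₂) = s₁ + u * w := by
        rw [hN', hwdef]
        field_simp
      have hs : s₁ ^ 2 + s₁ = x₁ + W.a₂ + W.a₄ / x₁ := by
        rw [hs₁def]
        field_simp
        linear_combination heq₁
      have e : W.addX x₁ x₂ ((y₁ - W.negY x₂ y₂) / (x₁ - x₂)) =
        ((y₁ - W.negY x₂ y₂) / (x₁ - x₂)) ^ 2 + W.a₁ * ((y₁ - W.negY x₂ y₂) / (x₁ - x₂)) -
          W.a₂ - x₁ - x₂ := rfl
      rw [e, hlam, hN.a₁]
      linear_combination hs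
    have hε : v (W.a₄ / x₁ + 2 * s₁ * u * w - x₂) < 1 := by
      refine S05_v_sub_lt A (S05_v_add_lt A ?_ ?_) hx₂
      · rw [map_div₀, hxx]
        exact (div_lt_one₀ hx₂pos).2 ha
      · rw [map_mul, map_mul, map_mul, hu, hw, mul_one, mul_one]
        exact mul_lt_one_of_nonneg_of_lt_one_left zero_le hN.two hs₁
    rw [A.mem_nonunits_iff, not_lt, hx3]
    have := Valuation.map_add_eq_of_lt_left (A.valuation)
      (x := u * w * (u * w + 1)) (y := W.a₄ / x₁ + 2 * s₁ * u * w - x₂) (by rw [hT]; exact hε)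
    rw [this, hT]


end node2

section frey

local notation "ℚbar" => AlgebraicClosure ℚ
local notation "Gℚ" => (AlgebraicClosure ℚ ≃ₐ[ℚ] AlgebraicClosure ℚ)

variable (P : FreyPackage) {A : ValuationSubring ℚbar}

/-- the Frey curve has the node datum at `2`. -/
theorem S13_two_node2 (hA : (2 : ℚbar) ∈ A.nonunits) : S13_Node2 (P.freyCurve⁄ℚbar) A where
  int := S13_two_integral P hA
  two := S13_two_val_two_lt hA
  two_ne := two_ne_zero
  a₁ := S05_frey_a₁ P
  a₃ := S05_frey_a₃ P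
  a₆ := S05_frey_a₆ P
  a₄_ne := S13_two_a₄_ne P
  a₄_lt := S13_two_a₄_lt P hA

/-- `σ Q - Q` is away from the node, for `σ` in the inertia group at `2` and `Q` of order `p`. -/
theorem S13_two_sub_away (hA : (2 : ℚbar) ∈ A.nonunits) (σ : Gℚ) (hσ : S13_Inert A σ)
    (Q : (P.freyCurve⁄ℚbar).Point) (hQ : P.p • Q = 0) :
    σ • Q - Q = 0 ∨ ∃ x, S51_c_IsX (σ • Q - Q) x ∧ x ∉ A.nonunits := by
  have hN := S13_two_node2 P hA
  rcases Q with _ | ⟨x, y, h⟩
  · left
    change σ • (0 : (P.freyCurve⁄ℚbar).Point) - 0 = 0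
    rw [S05_smul_zero, sub_zero]
  · obtain ⟨hx, hy⟩ := S13_two_torsion_integral P A hA h hQ
    by_cases hxu : x ∈ A.nonunits
    · -- the node
      have hX : A.valuation x < 1 := (A.mem_nonunits_iff).1 hxu
      obtain ⟨hlt, -⟩ := S13_lv_node_level A hN.int hN.a₁ hN.a₃ hN.a₆ hN.a₄_ne hN.a₄_lt
        (S13_two_b₂_unit P hA) h P.pp (by have := P.hp5; omega) hQ hX
      have hxpos : 0 < A.valuation x := hN.a₄_pos.trans hlt
      have hx0 : x ≠ 0 := (Valuation.ne_zero_iff _).1 hxpos.ne'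
      have hvσ : A.valuation (σ x) = A.valuation x := S13_val_inert A σ hσ x
      have hs : A.valuation (y / x) ≤ 1 := S13_two_slope_mem hN h.1 hX.le hlt.le
      have hσs : A.valuation (σ (y / x) - y / x) < 1 :=
        (A.mem_nonunits_iff).1 (hσ.2 _ ((A.valuation_le_one_iff _).1 hs))
      have hσx0 : σ x ≠ 0 := (map_ne_zero_iff σ σ.injective).2 hx0
      have hbr : A.valuation (σ y * x - y * σ x) < A.valuation (σ x) * A.valuation x := by
        have e : σ y * x - y * σ x = (σ (y / x) - y / x) * (σ x * x) := by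
          rw [map_div₀]
          field_simp
        rw [e, map_mul, map_mul]
        exact mul_lt_of_lt_one_left (mul_pos (hvσ ▸ hxpos) hxpos) hσs
      rw [S05_smul_some]
      by_cases hxe : σ x = x
      · left
        rw [sub_eq_zero]
        have hye : σ y = y := by
          by_contra hne
          have hσh : (P.freyCurve⁄ℚbar).Equation (σ x) (σ y) :=
            ((WeierstrassCurve.Affine.baseChange_nonsingular (W := P.freyCurve)
              (f := σ.toAlgHom) σ.toAlgHom.injective x y).mpr h).1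
          have e1 := hN.eq h.1
          have e2 := hN.eq hσh
          rw [hxe] at e2
          have e3 : (σ y - y) * (σ y + y + x) = 0 := by linear_combination e2 - e1
          rcases mul_eq_zero.1 e3 with h0 | h0
          · exact hne (sub_eq_zero.1 h0)
          · have e4 : σ y * x - y * σ x = -(x * (2 * y + x)) := by
              rw [hxe]; linear_combination x * h0
            rw [e4, hxe, Valuation.map_neg, map_mul] at hbr
            have h2y : A.valuation (2 * y) < A.valuation x := by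
              have e5 : 2 * y = 2 * (y / x) * x := by field_simp
              rw [e5, map_mul, map_mul]
              exact mul_lt_of_lt_one_left hxpos
                (mul_lt_one_of_nonneg_of_lt_one_left zero_le hN.two hs)
            rw [Valuation.map_add_eq_of_lt_right _ h2y] at hbr
            exact lt_irrefl _ hbr
        simp only [hxe, hye]
      · right
        exact S13_two_branch hN _ h (hvσ ▸ hX) hvσ hlt hxe hbr
    · left
      exact S13_two_sub_unit P A hA σ hσ h hQ hxu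

/-- **L2a+b+c**: inertia at `2` acts unipotently on `E[p]`. -/
theorem S13_two_unipotent (A : ValuationSubring ℚbar) (hA : (2 : ℚbar) ∈ A.nonunits)
    (σ τ : Gℚ) (hσ : S13_Inert A σ) (hτ : S13_Inert A τ)
    (Q : (P.freyCurve⁄ℚbar).Point) (hQ : P.p • Q = 0) :
    τ • (σ • Q - Q) = σ • Q - Q := by
  have hR : P.p • (σ • Q - Q) = 0 := by
    rw [nsmul_sub, ← S05_smul_nsmul, hQ, S05_smul_zero, sub_zero]
  rcases S13_two_sub_away P hA σ hσ Q hQ with h0 | ⟨x, ⟨y, h, hxy⟩, hxu⟩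
  · rw [h0, S05_smul_zero]
  · rw [hxy] at hR ⊢
    exact S13_two_fix_unit P A hA τ hτ h hR hxu

end frey

end Fermat.Agent.S13
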