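import Mathlib
import Fermat.Agent.S13.Defs
import Fermat.Agent.S13.TwoFrey

/-!
# S13, block L2f (rational numbers at the prime `2`)

`A` is a valuation subring of `ℚbar` with `2 ∈ 𝔪`.

* `S13_tf_rat_unit` : a rational number which is a unit at `A` is `≡ 1` modulo `𝔪`.
* `S13_tf_rat_val`  : the valuation of a nonzero rational number is an integral power of `v 2`.
* `S13_tf_zpow_inj` : the integral powers of `v 2` are pairwise distinct.

(The Frey model at `2` itself is in `S13/TwoFrey.lean`: `S13_two_integral`, `S13_two_val_a₄`,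
`S13_two_a₄_ne`, `S13_two_b₂_unit`.)
-/

set_option autoImplicit false

namespace Fermat.Agent.S13

open WeierstrassCurve Fermat.Agent.S05 Fermat.Agent.S51

local notation "ℚbar" => AlgebraicClosure ℚ

/-- even integers lie in `𝔪`. -/
theorem S13_tf_val_even (A : ValuationSubring ℚbar) (hA : (2 : ℚbar) ∈ A.nonunits) {n : ℤ}
    (hn : (2 : ℤ) ∣ n) : A.valuation (n : ℚbar) < 1 := by
  obtain ⟨k, rfl⟩ := hn
  push_cast
  rw [map_mul]
  calc A.valuation (2 : ℚbar) * A.valuation (k : ℚbar)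
      ≤ A.valuation (2 : ℚbar) * 1 :=
        mul_le_mul_right ((A.valuation_le_one_iff _).mpr (S05_intCast_mem A k)) _
    _ = A.valuation (2 : ℚbar) := mul_one _
    _ < 1 := S13_two_val_two_lt hA

/-- the image of a rational number as a quotient of (images of) integers. -/
theorem S13_tf_rat_eq (z : ℚ) :
    algebraMap ℚ ℚbar z = ((z.num : ℤ) : ℚbar) / ((z.den : ℤ) : ℚbar) := by
  conv_lhs => rw [← Rat.num_div_den z]
  rw [map_div₀]
  simp

/-- A rational number which is a unit at `A` is congruent to `1` modulo `𝔪`. -/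
theorem S13_tf_rat_unit (A : ValuationSubring ℚbar) (hA : (2 : ℚbar) ∈ A.nonunits) (z : ℚ)
    (hz : algebraMap ℚ ℚbar z ∈ A) (hz' : algebraMap ℚ ℚbar z ∉ A.nonunits) :
    algebraMap ℚ ℚbar z - 1 ∈ A.nonunits := by
  have hv : A.valuation (algebraMap ℚ ℚbar z) = 1 := by
    have h1 := (A.valuation_le_one_iff _).mpr hz
    rw [A.mem_nonunits_iff, not_lt] at hz'
    exact le_antisymm h1 hz'
  have hden0 : ((z.den : ℤ) : ℚbar) ≠ 0 := by
    have := z.den_ne_zero
    exact_mod_cast this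
  have hvden0 : A.valuation ((z.den : ℤ) : ℚbar) ≠ 0 := (Valuation.ne_zero_iff _).2 hden0
  rw [S13_tf_rat_eq, map_div₀, div_eq_one_iff_eq hvden0] at hv
  -- numerator and denominator are both odd
  have hcop : IsCoprime z.num (z.den : ℤ) := by
    rw [Int.isCoprime_iff_gcd_eq_one]
    have := z.reduced
    simpa [Nat.Coprime, Int.gcd] using this
  have hnum : ¬ (2 : ℤ) ∣ z.num := by
    intro h2
    have hd : ¬ (2 : ℤ) ∣ (z.den : ℤ) := by
      intro h3
      have := hcop.isUnit_of_dvd' h2 h3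
      exact Int.prime_two.not_isUnit this
    have h4 := S13_tf_val_even A hA h2
    rw [hv, S13_two_val_odd hA hd] at h4
    exact lt_irrefl _ h4
  have hden : ¬ (2 : ℤ) ∣ (z.den : ℤ) := by
    intro h3
    have h4 := S13_tf_val_even A hA h3
    rw [← hv, S13_two_val_odd hA hnum] at h4
    exact lt_irrefl _ h4
  have hsub : (2 : ℤ) ∣ z.num - (z.den : ℤ) := by
    have h1 : z.num % 2 = 1 := by
      rcases Int.emod_two_eq_zero_or_one z.num with h | h
      · exact absurd (Int.dvd_of_emod_eq_zero h) hnum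
      · exact h
    have h2 : (z.den : ℤ) % 2 = 1 := by
      rcases Int.emod_two_eq_zero_or_one (z.den : ℤ) with h | h
      · exact absurd (Int.dvd_of_emod_eq_zero h) hden
      · exact h
    omega
  rw [A.mem_nonunits_iff, S13_tf_rat_eq]
  have key : ((z.num : ℤ) : ℚbar) / ((z.den : ℤ) : ℚbar) - 1 =
      ((z.num - (z.den : ℤ) : ℤ) : ℚbar) / ((z.den : ℤ) : ℚbar) := by
    push_cast
    field_simp
  rw [key, map_div₀, S13_two_val_odd hA hden, div_one]
  exact S13_tf_val_even A hA hsub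

/-- the valuation of a nonzero integer is a power of `v 2`. -/
theorem S13_tf_int_val (A : ValuationSubring ℚbar) (hA : (2 : ℚbar) ∈ A.nonunits) (n : ℤ)
    (hn : n ≠ 0) : ∃ e : ℕ, A.valuation (n : ℚbar) = A.valuation (2 : ℚbar) ^ e := by
  have hn0 : n.natAbs ≠ 0 := Int.natAbs_ne_zero.2 hn
  obtain ⟨e, m, hm, hem⟩ := Nat.exists_eq_two_pow_mul_odd hn0
  have hm2 : ¬ 2 ∣ m := fun h => (Nat.not_even_iff_odd.2 hm) (even_iff_two_dvd.2 h)
  refine ⟨e, ?_⟩
  have habs : A.valuation ((n.natAbs : ℕ) : ℚbar) = A.valuation (n : ℚbar) := by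
    rcases Int.natAbs_eq n with h | h
    · conv_rhs => rw [h]
      simp
    · conv_rhs => rw [h]
      simp
  rw [← habs, hem]
  push_cast
  rw [map_mul, map_pow, S13_two_val_odd_nat hA hm2, mul_one]

/-- The valuation of a nonzero rational number is an integral power of `v 2`. -/
theorem S13_tf_rat_val (A : ValuationSubring ℚbar) (hA : (2 : ℚbar) ∈ A.nonunits) (z : ℚ)
    (hz : z ≠ 0) :
    ∃ k : ℤ, A.valuation (algebraMap ℚ ℚbar z) = A.valuation (2 : ℚbar) ^ k := by
  obtain ⟨e₁, h₁⟩ := S13_tf_int_val A hA z.num (Rat.num_ne_zero.mpr hz)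
  obtain ⟨e₂, h₂⟩ := S13_tf_int_val A hA (z.den : ℤ) (by exact_mod_cast z.den_ne_zero)
  refine ⟨(e₁ : ℤ) - (e₂ : ℤ), ?_⟩
  rw [S13_tf_rat_eq, map_div₀, h₁, h₂, zpow_sub₀ (S13_two_val_two_ne A), zpow_natCast,
    zpow_natCast]

/-- The integral powers of `v 2` are pairwise distinct. -/
theorem S13_tf_zpow_inj (A : ValuationSubring ℚbar) (hA : (2 : ℚbar) ∈ A.nonunits) {k l : ℤ}
    (h : A.valuation (2 : ℚbar) ^ k = A.valuation (2 : ℚbar) ^ l) : k = l :=
  zpow_right_injective₀ (zero_lt_iff.mpr (S13_two_val_two_ne A))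
    (S13_two_val_two_lt hA).ne h

end Fermat.Agent.S13
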