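import Mathlib
import Fermat.Agent.S13.TwoUnit

/-!
# S13, local analysis at `2`: unipotence of inertia from the node lemma (glue)

`S13_two_unipotent_of`: the statement `S13_two_unipotent` of the S13 plan, from L2b
(`S13_two_fix_unit`, landed) and the node lemma L2c (`S13_two_sub_node`), taken as a hypothesis.
-/

set_option autoImplicit false
set_option linter.unusedSectionVars false

namespace Fermat.Agent.S13

open WeierstrassCurve WeierstrassCurve.Affine WeierstrassCurve.Affine.Point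
open Fermat.Agent.S05 Fermat.Agent.S51

local notation "ℚbar" => AlgebraicClosure ℚ
local notation "Gℚ" => (AlgebraicClosure ℚ ≃ₐ[ℚ] AlgebraicClosure ℚ)

variable (P : FreyPackage) (A : ValuationSubring ℚbar)

/-- L2a+b+c: inertia at `2` acts unipotently on `E[p]`, from the node lemma L2c. -/
theorem S13_two_unipotent_of (hA : (2 : ℚbar) ∈ A.nonunits)
    (hnode : ∀ (σ : Gℚ), S13_Inert A σ → ∀ {x y : ℚbar}
      (h : (P.freyCurve⁄ℚbar).Nonsingular x y),
      P.p • (Point.some x y h : (P.freyCurve⁄ℚbar).Point) = 0 → x ∈ A.nonunits →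
      σ • (Point.some x y h : (P.freyCurve⁄ℚbar).Point) = Point.some x y h ∨
        ∃ (x' y' : ℚbar) (h' : (P.freyCurve⁄ℚbar).Nonsingular x' y'),
          σ • (Point.some x y h : (P.freyCurve⁄ℚbar).Point) - Point.some x y h =
            Point.some x' y' h' ∧ x' ∉ A.nonunits)
    (σ τ : Gℚ) (hσ : S13_Inert A σ) (hτ : S13_Inert A τ)
    (Q : (P.freyCurve⁄ℚbar).Point) (hQ : P.p • Q = 0) :
    τ • (σ • Q - Q) = σ • Q - Q := by
  have hR : P.p • (σ • Q - Q) = 0 := by
    rw [nsmul_sub, ← S05_smul_nsmul, hQ, S05_smul_zero, sub_zero]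
  rcases Q with _ | ⟨x, y, h⟩
  · have h0 : σ • (0 : (P.freyCurve⁄ℚbar).Point) - 0 = 0 := by
      rw [S05_smul_zero, sub_zero]
    show τ • (σ • (0 : (P.freyCurve⁄ℚbar).Point) - 0) = σ • (0 : (P.freyCurve⁄ℚbar).Point) - 0
    rw [h0, S05_smul_zero]
  · by_cases hx : x ∈ A.nonunits
    · rcases hnode σ hσ h hQ hx with hfix | ⟨x', y', h', hsub, hx'⟩
      · rw [hfix, sub_self, S05_smul_zero]
      · rw [hsub] at hR ⊢
        exact S13_two_fix_unit P A hA τ hτ h' hR hx'
    · rw [S13_two_fix_unit P A hA σ hσ h hQ hx, sub_self, S05_smul_zero]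

end Fermat.Agent.S13
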